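/-
T3-A (helper6), part 7: the local inequality of the conservation law.

For a Gauss unit `g ∈ C = 𝒪 ∩ IntCl(K[x])` and a place `Q` of `F̄` on the chart `x̄ ≠ ∞`:
`ord_Q (res g) ≤ ∑_{r P = Q} ord_P g`   (`t3a_local_le`).
Proof: `G = ∏ u_P ^ {ord_P g}` over the zeros `P` of `g` with `x(P) ≠ ∞`, where `u_P ∈ C` vanishes at
`P` and `res u_P` has order `1` at `Q` if `r P = Q`, order `0` otherwise; then `G / g ∈ C` (Gauss
division) and `ord_Q (res G) = ∑_{r P = Q} ord_P g`.
-/
import Fermat.Agent.Lib.T3.Red.Map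

set_option autoImplicit false
set_option linter.style.haveILetI false
set_option linter.unusedSectionVars false

namespace Fermat.Agent.T3

open AlgebraicCurve IntermediateField Fermat.Agent.Curve Fermat.Agent.Curve.PlaceAux
  Fermat.Agent.T1 IsDedekindDomain

variable {K F k Fb : Type*} [Field K] [Field F] [Algebra K F] [Field k] [Field Fb] [Algebra k Fb]

section Generic

theorem t3a_ord_pow (v : Place K F) (f : F) (n : ℕ) : v.ord (f ^ n) = n * v.ord f := by
  rw [← zpow_natCast, v.ord_zpow]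

theorem t3a_ord_prod (v : Place K F) {ι : Type*} (s : Finset ι) (f : ι → F)
    (hf : ∀ i ∈ s, f i ≠ 0) : v.ord (∏ i ∈ s, f i) = ∑ i ∈ s, v.ord (f i) := by
  classical
  induction s using Finset.induction_on with
  | empty => simp
  | insert a s ha ih =>
    rw [Finset.prod_insert ha, Finset.sum_insert ha,
      v.ord_mul (hf a (Finset.mem_insert_self a s))
        (Finset.prod_ne_zero_iff.mpr fun i hi => hf i (Finset.mem_insert_of_mem hi)),
      ih fun i hi => hf i (Finset.mem_insert_of_mem hi)]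

theorem t3a_mapDomain_apply {α β : Type*} [DecidableEq β] (r : α → β) (D : α →₀ ℤ) (Q : β) :
    Finsupp.mapDomain r D Q = ∑ P ∈ D.support, if r P = Q then D P else 0 := by
  simp [Finsupp.mapDomain, Finsupp.sum, Finsupp.single_apply]

end Generic

section Ded

variable {x : F} [hx : Fact (IsFunctionFieldGen K F x)] [hsep : Algebra.IsSeparable K⟮x⟯ F]

local instance : IsDedekindDomain (CurveP.Bx K x) := CurveP.Bx.isDedekindDomain

local instance : IsFractionRing (CurveP.Bx K x) F := CurveP.Bx.isFractionRing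

/-- a function of `IntCl(K[x])` with a simple zero at a given place of the chart -/
theorem t3a_exists_uniformizer (Q : Place K F) (hxQ : x ∈ Q.toValuationSubring) :
    ∃ t : F, IsIntegral ↥(Algebra.adjoin K {x}) t ∧ Q.ord t = 1 := by
  set w := centre Q (CurveP.PlaceAux.Bx_le Q hxQ) with hw
  obtain ⟨π, hπ⟩ := w.intValuation_exists_uniformizer
  refine ⟨algebraMap (CurveP.Bx K x) F π, π.2, ?_⟩
  have hQ : Q = Place.ofHeightOneSpectrum (K := K) w :=
    eq_ofHeightOneSpectrum_centre Q (CurveP.PlaceAux.Bx_le Q hxQ)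
  have h1 : Q.ord (algebraMap (CurveP.Bx K x) F π) =
      (Place.ofHeightOneSpectrum (K := K) (F := F) w).ord (algebraMap (CurveP.Bx K x) F π) :=
    congrArg (fun v : Place K F => v.ord (algebraMap (CurveP.Bx K x) F π)) hQ
  rw [h1, ofHeightOneSpectrum_ord, HeightOneSpectrum.valuation_of_algebraMap, hπ, WithZero.log_exp]
  norm_num

/-- a function of `IntCl(K[x])` vanishing at `Q'` but not at `Q` -/
theorem t3a_exists_separating (Q Q' : Place K F) (hxQ : x ∈ Q.toValuationSubring)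
    (hxQ' : x ∈ Q'.toValuationSubring) (hne : Q' ≠ Q) :
    ∃ s : F, IsIntegral ↥(Algebra.adjoin K {x}) s ∧ s ≠ 0 ∧ OrdGE Q' s 1 ∧ Q.ord s = 0 := by
  set w := centre Q (CurveP.PlaceAux.Bx_le Q hxQ) with hw
  set w' := centre Q' (CurveP.PlaceAux.Bx_le Q' hxQ') with hw'
  have hQ : Q = Place.ofHeightOneSpectrum (K := K) w :=
    eq_ofHeightOneSpectrum_centre Q (CurveP.PlaceAux.Bx_le Q hxQ)
  have hQ' : Q' = Place.ofHeightOneSpectrum (K := K) w' :=
    eq_ofHeightOneSpectrum_centre Q' (CurveP.PlaceAux.Bx_le Q' hxQ')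
  have hex : ∃ s : CurveP.Bx K x, s ∈ w'.asIdeal ∧ s ∉ w.asIdeal := by
    by_contra hcon
    push Not at hcon
    have hle : w'.asIdeal ≤ w.asIdeal := fun s hs => hcon s hs
    have heq : w'.asIdeal = w.asIdeal := w'.isMaximal.eq_of_le w.isPrime.ne_top hle
    apply hne
    rw [hQ, hQ']
    congr 1
    ext1
    exact heq
  obtain ⟨s, hs', hs⟩ := hex
  rw [hw', mem_centre_iff] at hs'
  rw [hw, mem_centre_iff] at hs
  push Not at hs
  have hsF : algebraMap (CurveP.Bx K x) F s ≠ 0 := by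
    rw [ne_eq, IsFractionRing.to_map_eq_zero_iff]
    exact hs.1
  refine ⟨algebraMap (CurveP.Bx K x) F s, s.2, hsF, ?_, ?_⟩
  · rw [ordGE_iff]
    rcases hs' with h0 | h0
    · exact absurd h0 hs.1
    · right
      omega
  · have h0 : 0 ≤ Q.ord (algebraMap (CurveP.Bx K x) F s) :=
      ord_nonneg_of_mem Q (CurveP.PlaceAux.Bx_le Q hxQ s)
    have h1 := hs.2
    omega

end Ded

variable [IsAlgClosed K] [IsAlgClosed k]
variable {d : TbBase K F k Fb} {ℓ : ℕ} {x : F} (hg : T3aGood d ℓ x)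
variable {r : Place K F → Place k Fb}

include hg

open Classical in
/-- the local functions `u_P` -/
theorem t3a_exists_local (hr : T3aIsRed d x r) (Q : Place k Fb) (hQ : 0 ≤ Q.ord hg.xb)
    (P : Place K F) :
    ∃ u : F, ∃ huC : u ∈ t3aC d x, (0 ≤ P.ord x → OrdGE P u 1) ∧ d.res ⟨u, huC.1⟩ ≠ 0 ∧
      Q.ord (d.res ⟨u, huC.1⟩) = if r P = Q then 1 else 0 := by
  haveI : Fact (IsFunctionFieldGen k Fb hg.xb) := ⟨hg.genb'⟩
  haveI := hg.sepb'
  have hxQ : hg.xb ∈ Q.toValuationSubring := mem_of_ord_nonneg Q hQ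
  by_cases hP : T3aChartPlace d x P
  · by_cases hrP : r P = Q
    · -- a local parameter at `Q`
      obtain ⟨tb, htb, htb1⟩ := t3a_exists_uniformizer Q hxQ
      obtain ⟨t, htC, hres⟩ := t3a_exists_lift hg htb
      obtain ⟨c, hc⟩ := t3a_value_mem hg hP htC
      have h1 := hr.eval1 P hP t htC c hc
      rw [hrP, hres] at h1
      have h2 : OrdGE Q tb 1 := (ordGE_iff Q).mpr (Or.inr (le_of_eq htb1.symm))
      have h3 := h2.sub Q h1
      rw [sub_sub_cancel] at h3
      have hc0 : d.resA c = 0 := t3a_const_eq_zero_of_ordGE Q h3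
      have huC : t - algebraMap K F (c : K) ∈ t3aC d x :=
        (t3aC d x).sub_mem htC (t3a_algebraMap_mem_C d x c)
      have hresu : d.res ⟨t - algebraMap K F (c : K), huC.1⟩ = tb := by
        rw [d.res_sub' htC.1 (d.algebraMap_mem c), d.res_algebraMap, hc0, map_zero, sub_zero, hres]
      refine ⟨t - algebraMap K F (c : K), huC, fun _ => hc, ?_, ?_⟩
      · rw [hresu]
        intro h0
        rw [h0, Q.ord_zero] at htb1
        exact zero_ne_one htb1
      · rw [hresu, if_pos hrP, htb1]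
    · -- a function vanishing at `r P` but not at `Q`
      have hxQ' : hg.xb ∈ (r P).toValuationSubring :=
        mem_of_ord_nonneg _ (hr.ord_nonneg_of_chartPlace hg hP)
      obtain ⟨sb, hsb, hsb0, hsb1, hsbQ⟩ := t3a_exists_separating Q (r P) hxQ hxQ' hrP
      obtain ⟨s, hsC, hres⟩ := t3a_exists_lift hg hsb
      obtain ⟨c, hc⟩ := t3a_value_mem hg hP hsC
      have h1 := hr.eval1 P hP s hsC c hc
      rw [hres] at h1
      have h3 := hsb1.sub (r P) h1
      rw [sub_sub_cancel] at h3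
      have hc0 : d.resA c = 0 := t3a_const_eq_zero_of_ordGE (r P) h3
      have huC : s - algebraMap K F (c : K) ∈ t3aC d x :=
        (t3aC d x).sub_mem hsC (t3a_algebraMap_mem_C d x c)
      have hresu : d.res ⟨s - algebraMap K F (c : K), huC.1⟩ = sb := by
        rw [d.res_sub' hsC.1 (d.algebraMap_mem c), d.res_algebraMap, hc0, map_zero, sub_zero, hres]
      refine ⟨s - algebraMap K F (c : K), huC, fun _ => hc, ?_, ?_⟩
      · rw [hresu]
        exact hsb0
      · rw [hresu, if_neg hrP, hsbQ]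
  · -- `P` is not a chart place, hence `r P ≠ Q`
    have hrP : r P ≠ Q := by
      intro h
      apply hP
      apply hr.chartPlace_of_ord_nonneg hg
      rw [h]
      exact hQ
    by_cases hPx : 0 ≤ P.ord x
    · have hxmem : x ∈ P.toValuationSubring := mem_of_ord_nonneg P hPx
      obtain ⟨b, hb⟩ := exists_const_ordGE_one hg.gen P hxmem
      have hbA : b ∉ d.A := fun hbA => hP ⟨⟨b, hbA⟩, hb⟩
      obtain ⟨hbi, hmax⟩ := t3a_inv_mem_maximalIdeal d hbA
      have hb0 : b ≠ 0 := fun h0 => hbA (h0 ▸ d.A.zero_mem)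
      have huC : algebraMap K F ((⟨b⁻¹, hbi⟩ : ↥d.A) : K) * x - 1 ∈ t3aC d x :=
        (t3aC d x).sub_mem ((t3aC d x).mul_mem (t3a_algebraMap_mem_C d x _) (t3a_x_mem_C hg))
          (t3aC d x).one_mem
      have hresu : d.res ⟨algebraMap K F ((⟨b⁻¹, hbi⟩ : ↥d.A) : K) * x - 1, huC.1⟩ = -1 := by
        rw [d.res_sub' (d.Ov.mul_mem (d.algebraMap_mem _) hg.hxO) d.Ov.one_mem,
          d.res_mul' (d.algebraMap_mem _) hg.hxO, d.res_algebraMap,
          (d.resA_eq_zero_iff _).mpr hmax, map_zero, zero_mul, zero_sub, d.res_one']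
      refine ⟨_, huC, fun _ => ?_, ?_, ?_⟩
      · have h1 := hb.smul P b⁻¹
        have h2 : b⁻¹ • (x - algebraMap K F b) =
            algebraMap K F ((⟨b⁻¹, hbi⟩ : ↥d.A) : K) * x - 1 := by
          show b⁻¹ • (x - algebraMap K F b) = algebraMap K F b⁻¹ * x - 1
          rw [smul_sub, Algebra.smul_def, Algebra.smul_def, ← map_mul, inv_mul_cancel₀ hb0, map_one]
        rwa [h2] at h1
      · rw [hresu]
        exact neg_ne_zero.mpr one_ne_zero
      · rw [hresu, if_neg hrP]
        have h1 : (-1 : Fb) = algebraMap k Fb (-1) := by rw [map_neg, map_one]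
        rw [h1, ord_algebraMap]
    · refine ⟨1, (t3aC d x).one_mem, fun h => absurd h hPx, ?_, ?_⟩
      · rw [d.res_one']
        exact one_ne_zero
      · rw [d.res_one', if_neg hrP, Q.ord_one]

open Classical in
/-- **the local inequality of the conservation law** -/
theorem t3a_local_le (hr : T3aIsRed d x r) {g : F} (hgC : g ∈ t3aC d x)
    (hres : d.res ⟨g, hgC.1⟩ ≠ 0) (D : Divisor K F) (hD : ∀ P, D P = P.ord g)
    (Q : Place k Fb) (hQ : 0 ≤ Q.ord hg.xb) :
    Q.ord (d.res ⟨g, hgC.1⟩) ≤ Finsupp.mapDomain r D Q := by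
  haveI := hg.sep
  have hg0 : g ≠ 0 := t3a_ne_zero_of_res_ne_zero d hgC.1 hres
  choose u huC hu1 hu2 hu3 using t3a_exists_local hg hr Q hQ
  set S : Finset (Place K F) := D.support.filter (fun P => 0 ≤ P.ord x) with hS
  have hDnn : ∀ P : Place K F, 0 ≤ P.ord x → 0 ≤ D P := fun P hP => by
    rw [hD]
    exact ta_ord_nonneg_of_isIntegral hgC.2 P hP
  set Gs : ↥d.Ov := ∏ P ∈ S, (⟨u P, (huC P).1⟩ : ↥d.Ov) ^ (D P).toNat with hGs
  have hGcoe : (Gs : F) = ∏ P ∈ S, u P ^ (D P).toNat := by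
    have h1 : (Gs : F) = d.Ov.subtype Gs := rfl
    rw [h1, hGs, map_prod]
    refine Finset.prod_congr rfl fun P _ => ?_
    rw [map_pow]
    rfl
  have hGres : d.res Gs = ∏ P ∈ S, d.res ⟨u P, (huC P).1⟩ ^ (D P).toNat := by
    rw [hGs, map_prod]
    refine Finset.prod_congr rfl fun P _ => ?_
    rw [map_pow]
  have hGres0 : d.res Gs ≠ 0 := by
    rw [hGres]
    exact Finset.prod_ne_zero_iff.mpr fun P _ => pow_ne_zero _ (hu2 P)
  have hG0 : (Gs : F) ≠ 0 := by
    intro h0
    apply hGres0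
    have : Gs = 0 := Subtype.ext h0
    rw [this, map_zero]
  have hu0 : ∀ P, u P ≠ 0 := fun P => t3a_ne_zero_of_res_ne_zero d (huC P).1 (hu2 P)
  have hginv : g⁻¹ ∈ d.Ov := t3a_inv_mem_Ov d hgC.1 hres
  have hhO : (Gs : F) * g⁻¹ ∈ d.Ov := d.Ov.mul_mem Gs.2 hginv
  have hhint : IsIntegral ↥(Algebra.adjoin K {x}) ((Gs : F) * g⁻¹) := by
    refine ta_isIntegral_of_regular hg.gen _ fun v hv => ?_
    rw [v.ord_mul hG0 (inv_ne_zero hg0), v.ord_inv, hGcoe,
      t3a_ord_prod v S _ (fun P _ => pow_ne_zero _ (hu0 P))]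
    have hterm : ∀ P ∈ S, 0 ≤ v.ord (u P ^ (D P).toNat) := fun P _ => by
      rw [t3a_ord_pow]
      exact mul_nonneg (Int.natCast_nonneg _) (ta_ord_nonneg_of_isIntegral (huC P).2 v hv)
    by_cases hvS : v ∈ S
    · have h1 := Finset.single_le_sum hterm hvS
      have h2 : v.ord g ≤ v.ord (u v ^ (D v).toNat) := by
        rw [t3a_ord_pow, Int.toNat_of_nonneg (hDnn v hv), ← hD v]
        have h3 : 1 ≤ v.ord (u v) := by
          rcases (ordGE_iff v).mp (hu1 v hv) with h0 | h0
          · exact absurd h0 (hu0 v)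
          · exact h0
        nlinarith [hDnn v hv]
      linarith
    · have h1 : D v = 0 := by
        by_contra hne
        apply hvS
        rw [hS, Finset.mem_filter, Finsupp.mem_support_iff]
        exact ⟨hne, hv⟩
      rw [← hD v, h1]
      have := Finset.sum_nonneg hterm
      linarith
  have hhC : (Gs : F) * g⁻¹ ∈ t3aC d x := ⟨hhO, hhint⟩
  have hmul : d.res Gs = d.res ⟨g, hgC.1⟩ * d.res ⟨(Gs : F) * g⁻¹, hhO⟩ := by
    rw [← d.res_mul' hgC.1 hhO]
    congr 1
    apply Subtype.ext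
    show (Gs : F) = g * ((Gs : F) * g⁻¹)
    field_simp
  have hresh0 : d.res ⟨(Gs : F) * g⁻¹, hhO⟩ ≠ 0 := fun h0 =>
    hGres0 (by rw [hmul, h0, mul_zero])
  have hordh : 0 ≤ Q.ord (d.res ⟨(Gs : F) * g⁻¹, hhO⟩) :=
    ta_ord_nonneg_of_isIntegral (t3a_isIntegral_res hg hhC) Q hQ
  have hordG : Q.ord (d.res Gs) =
      Q.ord (d.res ⟨g, hgC.1⟩) + Q.ord (d.res ⟨(Gs : F) * g⁻¹, hhO⟩) := by
    rw [hmul, Q.ord_mul hres hresh0]
  have hordG' : Q.ord (d.res Gs) = ∑ P ∈ S, if r P = Q then D P else 0 := by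
    rw [hGres, t3a_ord_prod Q S _ (fun P _ => pow_ne_zero _ (hu2 P))]
    refine Finset.sum_congr rfl fun P hP => ?_
    rw [hS, Finset.mem_filter] at hP
    rw [t3a_ord_pow, hu3 P, Int.toNat_of_nonneg (hDnn P hP.2)]
    split_ifs <;> simp
  rw [t3a_mapDomain_apply]
  have hsum : ∑ P ∈ S, (if r P = Q then D P else 0) =
      ∑ P ∈ D.support, if r P = Q then D P else 0 := by
    rw [hS, Finset.sum_filter]
    refine Finset.sum_congr rfl fun P _ => ?_
    by_cases hPx : 0 ≤ P.ord x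
    · rw [if_pos hPx]
    · rw [if_neg hPx]
      have hrP : r P ≠ Q := by
        intro h
        apply hPx
        have hch := hr.chartPlace_of_ord_nonneg hg (P := P) (by rw [h]; exact hQ)
        obtain ⟨a, ha⟩ := hch
        exact ord_nonneg_of_mem P (CurveP.RRAux.mem_of_ordGE_sub_const P ha)
      rw [if_neg hrP]
  rw [← hsum, ← hordG']
  linarith

end Fermat.Agent.T3
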