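/-
T3-A (helper6), part 8: **the conservation law** `∑_{r P = Q} ord_P f = ord_Q (res f)` for every
Gauss unit `f`.

From the local inequality `t3a_local_le` (both charts), `deg (x)_∞ = deg (x̄)_∞` and
"an effective divisor of degree `0` is `0`".
-/
import Fermat.Agent.Lib.T3.Red.Cons

set_option autoImplicit false
set_option linter.style.haveILetI false
set_option linter.unusedSectionVars false

namespace Fermat.Agent.T3

open AlgebraicCurve IntermediateField Fermat.Agent.Curve Fermat.Agent.Curve.PlaceAux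
  Fermat.Agent.T1 IsDedekindDomain

variable {K F k Fb : Type*} [Field K] [Field F] [Algebra K F] [Field k] [Field Fb] [Algebra k Fb]
variable [IsAlgClosed K] [IsAlgClosed k]

section DegMap

/-- `mapDomain` preserves the degree (all places have degree one) -/
theorem t3a_degree_mapDomain {x : F} (hx : IsFunctionFieldGen K F x) {xb : Fb}
    (hxb : IsFunctionFieldGen k Fb xb) (r : Place K F → Place k Fb) (D : Divisor K F) :
    Divisor.degree (Finsupp.mapDomain r D) = Divisor.degree D := by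
  induction D using Finsupp.induction with
  | zero => simp
  | single_add P n D _ _ ih =>
    rw [Finsupp.mapDomain_add, map_add, map_add, ih, Finsupp.mapDomain_single,
      Divisor.degree_single, Divisor.degree_single, deg_eq_one hx P, deg_eq_one hxb (r P)]

theorem t3a_mapDomain_nonneg (r : Place K F → Place k Fb) {D : Divisor K F} (h : 0 ≤ D) :
    0 ≤ Finsupp.mapDomain r D := by
  classical
  intro Q
  rw [Finsupp.zero_apply, t3a_mapDomain_apply]
  refine Finset.sum_nonneg fun P _ => ?_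
  split_ifs
  · exact h P
  · exact le_rfl

theorem t3a_mapDomain_mono (r : Place K F → Place k Fb) {D D' : Divisor K F} (h : D ≤ D') :
    Finsupp.mapDomain r D ≤ Finsupp.mapDomain r D' := by
  have h1 := t3a_mapDomain_nonneg r (sub_nonneg.mpr h)
  rw [Finsupp.mapDomain_sub] at h1
  exact sub_nonneg.mp h1

end DegMap

variable {d : TbBase K F k Fb} {ℓ : ℕ} {x : F} (hg : T3aGood d ℓ x)
variable {r : Place K F → Place k Fb}

include hg

/-- the pole divisor of `x` reduces to the pole divisor of `x̄` -/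
theorem t3a_mapDomain_poles (hr : T3aIsRed d x r) (Dp : Divisor K F)
    (hDp : ∀ P : Place K F, Dp P = max 0 (-(P.ord x))) (Dpb : Divisor k Fb)
    (hDpb : ∀ Q : Place k Fb, Dpb Q = max 0 (-(Q.ord hg.xb))) :
    Finsupp.mapDomain r Dp = Dpb := by
  haveI := hg.sep
  haveI := hg.sepi
  haveI := hg.sepb'
  have hDp' : Dp = CurveP.RRAux.poleDiv hg.gen x :=
    Finsupp.ext fun P => by rw [hDp, CurveP.RRAux.poleDiv_apply]
  have hDpb' : Dpb = CurveP.RRAux.poleDiv hg.genb' hg.xb :=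
    Finsupp.ext fun Q => by rw [hDpb, CurveP.RRAux.poleDiv_apply]
  have hdeg : Divisor.degree (Finsupp.mapDomain r Dp - Dpb) = 0 := by
    rw [map_sub, t3a_degree_mapDomain hg.gen hg.genb', hDp', hDpb',
      CurveP.RRAux.degree_poleDiv_gen, CurveP.RRAux.degree_poleDiv_gen]
    have := hg.deg
    have h2 : Module.finrank ↥k⟮hg.xb⟯ Fb = Module.finrank ↥k⟮d.res ⟨x, hg.hxO⟩⟯ Fb := rfl
    rw [h2, ← this, sub_self]
  have hDp0 : 0 ≤ Dp := fun P => by
    rw [Finsupp.zero_apply, hDp]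
    exact le_max_left _ _
  have hnn : 0 ≤ Finsupp.mapDomain r Dp - Dpb := by
    intro Q
    rw [Finsupp.zero_apply, Finsupp.sub_apply, sub_nonneg]
    rcases le_or_gt 0 (Q.ord hg.xb) with hQ | hQ
    · rw [hDpb, max_eq_left (by omega)]
      exact t3a_mapDomain_nonneg r hDp0 Q
    · -- the local inequality for `x⁻¹` on the chart `x⁻¹`
      have hxiC : x⁻¹ ∈ t3aC d x⁻¹ := t3a_x_mem_C hg.inv
      have hresi : d.res ⟨x⁻¹, hxiC.1⟩ = hg.xb⁻¹ := hg.res_inv
      have hresi0 : d.res ⟨x⁻¹, hxiC.1⟩ ≠ 0 := by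
        rw [hresi]
        exact inv_ne_zero hg.xb_ne_zero
      have hQ' : 0 ≤ Q.ord hg.inv.xb := by
        have h1 : hg.inv.xb = hg.xb⁻¹ := hg.res_inv
        rw [h1, Q.ord_inv]
        omega
      have hx0 : x⁻¹ ≠ 0 := inv_ne_zero hg.x_ne_zero
      have h1 := t3a_local_le hg.inv hr.inv hxiC hresi0 (CurveP.divOf hg.gen x⁻¹)
        (fun P => CurveP.divOf_apply hg.gen hx0 P) Q hQ'
      have hle : CurveP.divOf hg.gen x⁻¹ ≤ Dp := by
        intro P
        rw [CurveP.divOf_apply hg.gen hx0, hDp, P.ord_inv]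
        exact le_max_right _ _
      have h2 := t3a_mapDomain_mono r hle Q
      rw [hresi, Q.ord_inv] at h1
      rw [hDpb, max_eq_right (by omega)]
      exact h1.trans h2
  have h0 := tw_eq_zero_of_nonneg_of_degree hg.genb' hnn hdeg
  exact sub_eq_zero.mp h0

/-- **conservation for the coordinate `x`** -/
theorem t3a_cons_x (hr : T3aIsRed d x r) (D : Divisor K F) (hD : ∀ P : Place K F, D P = P.ord x)
    (Q : Place k Fb) : Finsupp.mapDomain r D Q = Q.ord hg.xb := by
  haveI := hg.sep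
  haveI := hg.sepi
  haveI := hg.sepb'
  haveI := hg.sepbi'
  have hxinv := CurveP.isFunctionFieldGen_inv hg.gen
  have hxbinv := CurveP.isFunctionFieldGen_inv hg.genb'
  have hxbi : hg.inv.xb = hg.xb⁻¹ := hg.res_inv
  have h1 := t3a_mapDomain_poles hg hr (CurveP.RRAux.poleDiv hg.gen x)
    (fun P => CurveP.RRAux.poleDiv_apply hg.gen x P) (CurveP.RRAux.poleDiv hg.genb' hg.xb)
    (fun Q => CurveP.RRAux.poleDiv_apply hg.genb' hg.xb Q)
  have h2 := t3a_mapDomain_poles hg.inv hr.inv (CurveP.RRAux.poleDiv hxinv x⁻¹)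
    (fun P => CurveP.RRAux.poleDiv_apply hxinv x⁻¹ P) (CurveP.RRAux.poleDiv hxbinv hg.xb⁻¹)
    (fun Q => by rw [CurveP.RRAux.poleDiv_apply hxbinv hg.xb⁻¹ Q, hxbi])
  have hDeq : D = CurveP.RRAux.poleDiv hxinv x⁻¹ - CurveP.RRAux.poleDiv hg.gen x := by
    ext P
    rw [Finsupp.sub_apply, CurveP.RRAux.poleDiv_apply, CurveP.RRAux.poleDiv_apply, hD, P.ord_inv,
      neg_neg]
    rcases le_total 0 (P.ord x) with h | h
    · rw [max_eq_right h, max_eq_left (by omega)]
      ring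
    · rw [max_eq_left h, max_eq_right (by omega)]
      ring
  rw [hDeq, Finsupp.mapDomain_sub, Finsupp.sub_apply, h1, h2, CurveP.RRAux.poleDiv_apply,
    CurveP.RRAux.poleDiv_apply, Q.ord_inv, neg_neg]
  rcases le_total 0 (Q.ord hg.xb) with h | h
  · rw [max_eq_right h, max_eq_left (by omega)]
    ring
  · rw [max_eq_left h, max_eq_right (by omega)]
    ring

/-- **conservation for the Gauss units of `C`** -/
theorem t3a_cons_C (hr : T3aIsRed d x r) {g : F} (hgC : g ∈ t3aC d x)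
    (hres : d.res ⟨g, hgC.1⟩ ≠ 0) (D : Divisor K F) (hD : ∀ P : Place K F, D P = P.ord g)
    (Q : Place k Fb) : Finsupp.mapDomain r D Q = Q.ord (d.res ⟨g, hgC.1⟩) := by
  haveI := hg.sep
  haveI := hg.sepb'
  have hg0 : g ≠ 0 := t3a_ne_zero_of_res_ne_zero d hgC.1 hres
  have hx0 : x ≠ 0 := hg.x_ne_zero
  have hDeq : D = CurveP.divOf hg.gen g :=
    Finsupp.ext fun P => by rw [hD, CurveP.divOf_apply hg.gen hg0]
  have hdeg : Divisor.degree
      (Finsupp.mapDomain r D - CurveP.divOf hg.genb' (d.res ⟨g, hgC.1⟩)) = 0 := by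
    rw [map_sub, t3a_degree_mapDomain hg.gen hg.genb', hDeq, CurveP.degree_divOf,
      CurveP.degree_divOf, sub_self]
  have hnn : 0 ≤ Finsupp.mapDomain r D - CurveP.divOf hg.genb' (d.res ⟨g, hgC.1⟩) := by
    intro Q
    rw [Finsupp.zero_apply, Finsupp.sub_apply, sub_nonneg, CurveP.divOf_apply hg.genb' hres]
    rcases le_or_gt 0 (Q.ord hg.xb) with hQ | hQ
    · exact t3a_local_le hg hr hgC hres D hD Q hQ
    · -- pass to the chart `x⁻¹`
      have hgC' : g ∈ t3aC d (x⁻¹)⁻¹ := by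
        rw [inv_inv]
        exact hgC
      obtain ⟨n, hn⟩ := t3a_exists_pow_mul_mem_C hg.inv hgC'
      have hxiC : x⁻¹ ∈ t3aC d x⁻¹ := t3a_x_mem_C hg.inv
      have hresi : d.res ⟨x⁻¹, hxiC.1⟩ = hg.xb⁻¹ := hg.res_inv
      have hres2 : d.res ⟨x⁻¹ ^ n * g, hn.1⟩ = hg.xb⁻¹ ^ n * d.res ⟨g, hgC.1⟩ := by
        rw [d.res_mul' (d.Ov.pow_mem hg.hxiO n) hgC.1, d.res_pow' hg.hxiO, hresi]
      have hres20 : d.res ⟨x⁻¹ ^ n * g, hn.1⟩ ≠ 0 := by
        rw [hres2]
        exact mul_ne_zero (pow_ne_zero n (inv_ne_zero hg.xb_ne_zero)) hres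
      have hQ' : 0 ≤ Q.ord hg.inv.xb := by
        have h1 : hg.inv.xb = hg.xb⁻¹ := hg.res_inv
        rw [h1, Q.ord_inv]
        omega
      have hD2 : ∀ P : Place K F,
          (D - (n : ℤ) • CurveP.divOf hg.gen x) P = P.ord (x⁻¹ ^ n * g) := by
        intro P
        rw [Finsupp.sub_apply, Finsupp.smul_apply, CurveP.divOf_apply hg.gen hx0, hD,
          P.ord_mul (pow_ne_zero n (inv_ne_zero hx0)) hg0, t3a_ord_pow, P.ord_inv, smul_eq_mul]
        ring
      have h1 := t3a_local_le hg.inv hr.inv hn hres20 _ hD2 Q hQ'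
      have h2 := t3a_cons_x hg hr (CurveP.divOf hg.gen x)
        (fun P => CurveP.divOf_apply hg.gen hx0 P) Q
      rw [Finsupp.mapDomain_sub, Finsupp.mapDomain_smul, Finsupp.sub_apply, Finsupp.smul_apply,
        h2, hres2, Q.ord_mul (pow_ne_zero n (inv_ne_zero hg.xb_ne_zero)) hres, t3a_ord_pow,
        Q.ord_inv, smul_eq_mul] at h1
      linarith
  have h0 := tw_eq_zero_of_nonneg_of_degree hg.genb' hnn hdeg
  have h1 := congrArg (fun E : Divisor k Fb => E Q) h0
  simp only [Finsupp.sub_apply, Finsupp.zero_apply] at h1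
  rw [CurveP.divOf_apply hg.genb' hres] at h1
  exact sub_eq_zero.mp h1

/-- **the conservation law** for an arbitrary reduction map of places -/
theorem t3a_conservation_of_isRed (hr : T3aIsRed d x r) {f : F} (hf : f ∈ d.Ov)
    (hres : d.res ⟨f, hf⟩ ≠ 0) (D : Divisor K F) (hD : ∀ P : Place K F, D P = P.ord f)
    (Q : Place k Fb) : Finsupp.mapDomain r D Q = Q.ord (d.res ⟨f, hf⟩) := by
  haveI := hg.sep
  haveI : Fact (IsFunctionFieldGen K F x) := ⟨hg.gen⟩
  haveI : IsFractionRing (CurveP.Bx K x) F := CurveP.Bx.isFractionRing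
  have hf0 : f ≠ 0 := t3a_ne_zero_of_res_ne_zero d hf hres
  obtain ⟨a, b, hb, hfab⟩ := IsFractionRing.div_surjective (A := CurveP.Bx K x) f
  have hb0 : algebraMap (CurveP.Bx K x) F b ≠ 0 := by
    rw [ne_eq, IsFractionRing.to_map_eq_zero_iff]
    exact nonZeroDivisors.ne_zero hb
  obtain ⟨c, hc0, hcb, hcres⟩ := d.normalize _ hb0
  -- `h = c • b`, `g = h f = c • a`
  have hhint : IsIntegral ↥(Algebra.adjoin K {x}) (c • algebraMap (CurveP.Bx K x) F b) :=
    tb_isIntegral_smul x c b.2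
  have hhC : c • algebraMap (CurveP.Bx K x) F b ∈ t3aC d x := ⟨hcb, hhint⟩
  have hgeq : c • algebraMap (CurveP.Bx K x) F b * f = c • algebraMap (CurveP.Bx K x) F a := by
    rw [← hfab, smul_mul_assoc, mul_div_cancel₀ _ hb0]
  have hgO : c • algebraMap (CurveP.Bx K x) F b * f ∈ d.Ov := d.Ov.mul_mem hcb hf
  have hgint : IsIntegral ↥(Algebra.adjoin K {x}) (c • algebraMap (CurveP.Bx K x) F b * f) := by
    rw [hgeq]
    exact tb_isIntegral_smul x c a.2
  have hgC : c • algebraMap (CurveP.Bx K x) F b * f ∈ t3aC d x := ⟨hgO, hgint⟩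
  have hgres : d.res ⟨c • algebraMap (CurveP.Bx K x) F b * f, hgO⟩ =
      d.res ⟨c • algebraMap (CurveP.Bx K x) F b, hcb⟩ * d.res ⟨f, hf⟩ := d.res_mul' hcb hf
  have hgres0 : d.res ⟨c • algebraMap (CurveP.Bx K x) F b * f, hgO⟩ ≠ 0 := by
    rw [hgres]
    exact mul_ne_zero hcres hres
  have hh0 : c • algebraMap (CurveP.Bx K x) F b ≠ 0 := t3a_ne_zero_of_res_ne_zero d hcb hcres
  have hDeq : D = CurveP.divOf hg.gen (c • algebraMap (CurveP.Bx K x) F b * f) -
      CurveP.divOf hg.gen (c • algebraMap (CurveP.Bx K x) F b) := by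
    ext P
    rw [Finsupp.sub_apply, CurveP.divOf_apply hg.gen (mul_ne_zero hh0 hf0),
      CurveP.divOf_apply hg.gen hh0, hD, P.ord_mul hh0 hf0]
    ring
  have h1 := t3a_cons_C hg hr hgC hgres0 _
    (fun P => CurveP.divOf_apply hg.gen (mul_ne_zero hh0 hf0) P) Q
  have h2 := t3a_cons_C hg hr hhC hcres _ (fun P => CurveP.divOf_apply hg.gen hh0 P) Q
  rw [hDeq, Finsupp.mapDomain_sub, Finsupp.sub_apply, h1, h2, hgres, Q.ord_mul hcres hres]
  ring

omit hg in
/-- **THE CONSERVATION LAW**: `∑_{r P = Q} ord_P f = ord_Q (res f)` for every Gauss unit `f` -/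
theorem t3a_conservation (hg : T3aGood d ℓ x) {f : F} (hf : f ∈ d.Ov) (hres : d.res ⟨f, hf⟩ ≠ 0)
    (D : Divisor K F) (hD : ∀ P : Place K F, D P = P.ord f) (Q : Place k Fb) :
    Finsupp.mapDomain (t3aR hg) D Q = Q.ord (d.res ⟨f, hf⟩) :=
  t3a_conservation_of_isRed hg (t3aR_isRed hg) hf hres D hD Q

end Fermat.Agent.T3
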