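/-
T3-A (helper6), part 9: **the reduction map on divisor classes** `t3aRed hg : Pic⁰ K F →+ Pic⁰ k F̄`
and its injectivity on prime-to-`ℓ` torsion (from CORE' of T1, `tb_core_functionField`).
-/
import Fermat.Agent.Lib.T3.Red.Cons2

set_option autoImplicit false
set_option linter.style.haveILetI false
set_option linter.unusedSectionVars false

namespace Fermat.Agent.T3

open AlgebraicCurve IntermediateField Fermat.Agent.Curve Fermat.Agent.Curve.PlaceAux
  Fermat.Agent.T1 IsDedekindDomain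

variable {K F k Fb : Type*} [Field K] [Field F] [Algebra K F] [Field k] [Field Fb] [Algebra k Fb]
variable [IsAlgClosed K] [IsAlgClosed k]
variable {d : TbBase K F k Fb} {ℓ : ℕ} {x : F} (hg : T3aGood d ℓ x)

/-- a function all of whose orders vanish is a nonzero constant -/
theorem t3a_const_of_ord_eq_zero {x : F} (hx : IsFunctionFieldGen K F x)
    [Algebra.IsSeparable K⟮x⟯ F] {f : F} (hf : ∀ v : Place K F, v.ord f = 0) :
    ∃ c : K, algebraMap K F c = f := by
  have hmem : f ∈ riemannRochSpace (0 : Divisor K F) := by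
    rw [mem_riemannRochSpace_iff]
    intro v
    right
    rw [Finsupp.zero_apply, neg_zero, hf v]
  rw [CurveP.riemannRochSpace_zero hx] at hmem
  obtain ⟨c, hc⟩ := hmem
  exact ⟨c, hc⟩

/-- the divisor of a function does not change under scaling by a nonzero constant -/
theorem t3a_ord_smul (P : Place K F) {c : K} (hc : c ≠ 0) {f : F} (hf : f ≠ 0) :
    P.ord (c • f) = P.ord f := by
  rw [Algebra.smul_def, P.ord_mul (by rwa [ne_eq, map_eq_zero]) hf, ord_algebraMap, zero_add]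

/-- the reduction of a principal divisor is principal -/
theorem t3a_mapDomain_mem_principal {D : Divisor K F}
    (hD : D ∈ Divisor.principal (K := K) (F := F)) :
    Finsupp.mapDomain (t3aR hg) D ∈ Divisor.principal (K := k) (F := Fb) := by
  obtain ⟨f, hf0, hDf⟩ := hD
  obtain ⟨c, hc0, hcf, hcres⟩ := d.normalize f hf0
  refine ⟨d.res ⟨c • f, hcf⟩, hcres, fun Q => ?_⟩
  refine t3a_conservation hg hcf hcres D (fun P => ?_) Q
  rw [hDf P, t3a_ord_smul P hc0 hf0]

/-- reduction of divisors of degree `0` -/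
noncomputable def t3aRedDiv0 :
    Divisor.degZero (K := K) (F := F) →+ Divisor.degZero (K := k) (F := Fb) :=
  ((Finsupp.mapDomain.addMonoidHom (t3aR hg)).domRestrict _).codRestrict _ fun D => by
    rw [Divisor.mem_degZero]
    show Divisor.degree (Finsupp.mapDomain (t3aR hg) (D : Divisor K F)) = 0
    rw [t3a_degree_mapDomain hg.gen hg.genb']
    exact D.2

@[simp]
theorem coe_t3aRedDiv0 (D : Divisor.degZero (K := K) (F := F)) :
    ((t3aRedDiv0 hg D : Divisor.degZero (K := k) (F := Fb)) : Divisor k Fb) =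
      Finsupp.mapDomain (t3aR hg) (D : Divisor K F) := rfl

/-- **the reduction map on divisor classes** -/
noncomputable def t3aRed : Pic0 K F →+ Pic0 k Fb :=
  QuotientAddGroup.map _ _ (t3aRedDiv0 hg) (by
    rintro ⟨D, hD0⟩ hD
    simp only [AddSubgroup.mem_addSubgroupOf] at hD ⊢
    exact t3a_mapDomain_mem_principal hg hD)

theorem t3aRed_mk (D : Divisor.degZero (K := K) (F := F)) :
    t3aRed hg (Pic0.mk D) = Pic0.mk (t3aRedDiv0 hg D) := rfl

theorem t3a_pic0_mk_eq_zero_iff (D : Divisor.degZero (K := K) (F := F)) :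
    Pic0.mk D = 0 ↔ (D : Divisor K F) ∈ Divisor.principal (K := K) (F := F) := by
  rw [Pic0.mk, QuotientAddGroup.eq_zero_iff, AddSubgroup.mem_addSubgroupOf]

include hg in
/-- **the reduction map is injective on prime-to-`ℓ` torsion** -/
theorem t3aRed_injective_torsion {m : ℕ} (hm : Nat.Coprime m ℓ) (y : Pic0 K F)
    (hmy : m • y = 0) (hy : t3aRed hg y = 0) : y = 0 := by
  haveI := hg.sep
  haveI := hg.sepb'
  haveI : Algebra.IsSeparable k⟮d.res ⟨x, hg.hxO⟩⟯ Fb := hg.sepb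
  have hm0 : 0 < m := by
    rcases Nat.eq_zero_or_pos m with h0 | h
    · exfalso
      rw [h0, Nat.coprime_zero_left] at hm
      exact hg.hℓ.one_lt.ne' hm
    · exact h
  obtain ⟨D, rfl⟩ := Pic0.mk_surjective y
  -- `m D = div f`
  have h1 : Pic0.mk (m • D) = 0 := hmy
  rw [t3a_pic0_mk_eq_zero_iff] at h1
  obtain ⟨f, hf0, hDf⟩ := h1
  -- `red D = div gb`
  rw [t3aRed_mk, t3a_pic0_mk_eq_zero_iff] at hy
  obtain ⟨gb, hgb0, hDgb⟩ := hy
  -- normalize `f`
  obtain ⟨c, hc0, hcf, hcres⟩ := d.normalize f hf0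
  have hcf0 : c • f ≠ 0 := smul_ne_zero hc0 hf0
  have hDf' : ∀ P : Place K F, (m : ℤ) * (D : Divisor K F) P = P.ord (c • f) := by
    intro P
    rw [t3a_ord_smul P hc0 hf0, ← hDf P]
    simp
  -- `res (c f) = const * gb ^ m`
  have hcons : ∀ Q : Place k Fb, (m : ℤ) * Q.ord gb = Q.ord (d.res ⟨c • f, hcf⟩) := by
    intro Q
    have h2 := t3a_conservation hg hcf hcres ((m : ℤ) • (D : Divisor K F))
      (fun P => by rw [Finsupp.smul_apply, smul_eq_mul, hDf' P]) Q
    rw [Finsupp.mapDomain_smul, Finsupp.smul_apply, smul_eq_mul] at h2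
    rw [← h2, ← hDgb Q]
    rfl
  have hconst : ∀ Q : Place k Fb, Q.ord (d.res ⟨c • f, hcf⟩ * (gb ^ m)⁻¹) = 0 := by
    intro Q
    rw [Q.ord_mul hcres (inv_ne_zero (pow_ne_zero m hgb0)), Q.ord_inv, t3a_ord_pow, ← hcons Q]
    ring
  obtain ⟨e, he⟩ := t3a_const_of_ord_eq_zero hg.genb' hconst
  obtain ⟨e', he'⟩ := IsAlgClosed.exists_pow_nat_eq e hm0
  -- lift `e' gb`
  obtain ⟨⟨G, hGO⟩, hGres⟩ := d.res_surj (algebraMap k Fb e' * gb)
  have he0 : e ≠ 0 := by
    rintro rfl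
    rw [map_zero] at he
    exact mul_ne_zero hcres (inv_ne_zero (pow_ne_zero m hgb0)) he.symm
  have he'0 : e' ≠ 0 := by
    rintro rfl
    rw [zero_pow hm0.ne'] at he'
    exact he0 he'.symm
  have hGres0 : d.res ⟨G, hGO⟩ ≠ 0 := by
    rw [hGres]
    exact mul_ne_zero (by rwa [ne_eq, map_eq_zero]) hgb0
  have hG0 : G ≠ 0 := t3a_ne_zero_of_res_ne_zero d hGO hGres0
  have hGinv : G⁻¹ ∈ d.Ov := t3a_inv_mem_Ov d hGO hGres0
  -- `y' = c f / G ^ m` has reduction `1`
  have hy'O : c • f * G⁻¹ ^ m ∈ d.Ov := d.Ov.mul_mem hcf (d.Ov.pow_mem hGinv m)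
  have hy'1 : d.res ⟨c • f * G⁻¹ ^ m, hy'O⟩ = 1 := by
    rw [d.res_mul' hcf (d.Ov.pow_mem hGinv m), d.res_pow' hGinv, t3a_res_inv d hGO hGres0, hGres,
      inv_pow, mul_pow, ← map_pow, he', he]
    field_simp
  have hdiv : ∀ v : Place K F, (m : ℤ) ∣ v.ord (c • f * G⁻¹ ^ m) := by
    intro v
    rw [v.ord_mul hcf0 (pow_ne_zero m (inv_ne_zero hG0)), t3a_ord_pow, v.ord_inv, ← hDf' v]
    exact ⟨(D : Divisor K F) v - v.ord G, by ring⟩
  obtain ⟨h, hh⟩ := tb_core_functionField d hg.hℓ hg.hℓA hg.hℓ0 hm hg.gen hg.hxO hg.hxiO hg.genb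
    hg.deg hg.genus hg.int1 hg.int2 hy'O hy'1 hdiv
  -- `c f = (h G) ^ m`
  have hroot : (h * G) ^ m = c • f := by
    rw [mul_pow, hh, mul_assoc, ← mul_pow, inv_mul_cancel₀ hG0, one_pow, mul_one]
  have hhG0 : h * G ≠ 0 := by
    intro h0
    rw [h0, zero_pow hm0.ne'] at hroot
    exact hcf0 hroot.symm
  rw [t3a_pic0_mk_eq_zero_iff]
  refine ⟨h * G, hhG0, fun P => ?_⟩
  have h3 := hDf' P
  rw [← hroot, t3a_ord_pow] at h3
  have hm' : (m : ℤ) ≠ 0 := by exact_mod_cast hm0.ne'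
  exact mul_left_cancel₀ hm' h3

end Fermat.Agent.T3
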