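/-
T3-A (helper6), part 10: the modular instance.  At a good level `M` (`4 ∣ M` or `9 ∣ M`, `𝔓.p ∤ M`) the
base `t3aBase 𝔓 M hM = tbBaseQ …` of T1 has good reduction with respect to the coordinate `j`:
`t3a_good_modular 𝔓 M h49 hM : T3aGood (t3aBase 𝔓 M hM) 𝔓.p (tbJ M)`.
-/
import Fermat.Agent.Lib.T3.Red.Pic
import Fermat.Agent.Lib.T1.S18.AllLevels

set_option autoImplicit false
set_option linter.style.haveILetI false
set_option linter.unusedSectionVars false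
set_option linter.unusedVariables false
set_option synthInstance.maxHeartbeats 400000

namespace Fermat.Agent.T3

open AlgebraicCurve IntermediateField Fermat.Agent.Curve Fermat.Agent.Curve.PlaceAux
  Fermat.Agent.T1 ModularCurve Fermat.Agent.TW Fermat.Agent.S05Lib HahnSeries

local notation "Qb" => AlgebraicClosure ℚ

section OfEq

variable {K F k Fb : Type*} [Field K] [Field F] [Algebra K F] [Field k] [Field Fb] [Algebra k Fb]
  [IsAlgClosed K] [IsAlgClosed k]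

/-- constructor of `T3aGood` with a named reduction `xb` of the coordinate -/
theorem T3aGood.of_eq {d : TbBase K F k Fb} {ℓ : ℕ} {x : F} (hℓ : ℓ.Prime)
    (hℓA : ((ℓ : ℕ) : K) ∈ d.A.nonunits) (hℓ0 : ((ℓ : ℕ) : K) ≠ 0)
    (gen : IsFunctionFieldGen K F x) (sep : Algebra.IsSeparable K⟮x⟯ F)
    (hxO : x ∈ d.Ov) (hxiO : x⁻¹ ∈ d.Ov) {xb : Fb} (hxb : d.res ⟨x, hxO⟩ = xb)
    (genb : IsFunctionFieldGen k Fb xb) (sepb : Algebra.IsSeparable k⟮xb⟯ Fb)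
    (deg : Module.finrank K⟮x⟯ F = Module.finrank k⟮xb⟯ Fb)
    (genus : CurveP.genusR K F ≤ CurveP.genusR k Fb)
    (int1 : ∀ (f : F) (hf : f ∈ d.Ov), IsIntegral ↥(Algebra.adjoin K {x}) f →
      IsIntegral ↥(Algebra.adjoin k {xb}) (d.res ⟨f, hf⟩))
    (int2 : ∀ (f : F) (hf : f ∈ d.Ov), IsIntegral ↥(Algebra.adjoin K {x⁻¹}) f →
      IsIntegral ↥(Algebra.adjoin k {xb⁻¹}) (d.res ⟨f, hf⟩)) :
    T3aGood d ℓ x := by
  subst hxb
  exact
    { hℓ := hℓ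
      hℓA := hℓA
      hℓ0 := hℓ0
      gen := gen
      sep := sep
      hxO := hxO
      hxiO := hxiO
      genb := genb
      sepb := sepb
      deg := deg
      genus := genus
      int1 := int1
      int2 := int2 }

end OfEq

section Modular

variable (𝔓 : FFPlace) (M : ℕ) [NeZero M]

/-- the residue field of `𝔓` is algebraically closed -/
instance t3a_isAlgClosed_residue : IsAlgClosed (IsLocalRing.ResidueField ↥𝔓.P) :=
  tb_isAlgClosed_residueField 𝔓.P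

/-- good reduction at all finite levels -/
theorem t3aOK (hM : ¬ 𝔓.p ∣ M) : ∀ H : Subgroup 𝔓.I, H.FiniteIndex → TbLevelOK 𝔓 M H :=
  fun H hH => tbq_allLevelsOK 𝔓 M hM H hH

/-- the base `(Q̄, F_M) → (κ, F̄_M)` of T1 at a level prime to `𝔓.p` -/
noncomputable def t3aBase (hM : ¬ 𝔓.p ∣ M) :
    TbBase Qb ↥(modularFunctionFieldBar M) (IsLocalRing.ResidueField ↥𝔓.P) ↥(tbBarF 𝔓 M) :=
  tbBaseQ (t3aOK 𝔓 M hM)

theorem t3aBase_A (hM : ¬ 𝔓.p ∣ M) : (t3aBase 𝔓 M hM).A = 𝔓.P := rfl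

theorem t3aBase_resA (hM : ¬ 𝔓.p ∣ M) : (t3aBase 𝔓 M hM).resA = IsLocalRing.residue ↥𝔓.P := rfl

theorem t3aBase_Ov (hM : ¬ 𝔓.p ∣ M) : (t3aBase 𝔓 M hM).Ov = tbOvQ 𝔓 M := rfl

theorem t3aBase_res_tbJ (hM : ¬ 𝔓.p ∣ M) :
    (t3aBase 𝔓 M hM).res ⟨tbJ M, tbJ_mem_tbOvQ⟩ = tbBarJ 𝔓 M :=
  tbResQ_tbJ (t3aOK 𝔓 M hM)

/-- **good reduction of `X₀(M)` at `𝔓` with respect to `j`** -/
theorem t3a_good_modular (h49 : 4 ∣ M ∨ 9 ∣ M) (hM : ¬ 𝔓.p ∣ M) :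
    T3aGood (t3aBase 𝔓 M hM) 𝔓.p (tbJ M) := by
  have hbar := tkr_barOK 𝔓 h49 hM
  have hgen : IsFunctionFieldGen Qb ↥(modularFunctionFieldBar M) (tbJ M) :=
    Fermat.Agent.S24Lib.isFunctionFieldGen_jBar M
  have hsep : Algebra.IsSeparable ↥(Qb⟮tbJ M⟯) ↥(modularFunctionFieldBar M) := by
    haveI := hgen.finite
    haveI : CharZero ↥(Qb⟮tbJ M⟯) :=
      charZero_of_injective_algebraMap (algebraMap Qb ↥(Qb⟮tbJ M⟯)).injective
    infer_instance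
  have hℓ0 : ((𝔓.p : ℕ) : Qb) ≠ 0 := by
    exact_mod_cast 𝔓.hp.ne_zero
  exact T3aGood.of_eq 𝔓.hp 𝔓.hP hℓ0 hgen hsep tbJ_mem_tbOvQ tbJ_inv_mem_tbOvQ
    (t3aBase_res_tbJ 𝔓 M hM) hbar.gen hbar.sep hbar.deg hbar.genus
    (fun f hf hint => tbq_int1 (t3aOK 𝔓 M hM) f hf hint)
    (fun f hf hint => tbq_int2 (t3aOK 𝔓 M hM) f hf hint)

end Modular

end Fermat.Agent.T3
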