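/-
T3-A (helper6), part 1: the hypotheses `T3aGood d x` of the reduction theory ("the curve has good
reduction with respect to the coordinate `x`": exactly the hypotheses of `tb_core_functionField`), their
symmetry under `x ↦ x⁻¹`, the trivial chart `t3aChart` (`E = 0`, `y = 1`, `m = 1`) of the lattice layer of
T1-B, and the ring `C₁ = 𝒪 ∩ IntCl(K[x])` of integral functions on the chart `x ≠ ∞`.
-/
import Fermat.Agent.Lib.T1.Core.CoreFF

set_option autoImplicit false
set_option linter.style.haveILetI false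
set_option linter.unusedSectionVars false

namespace Fermat.Agent.T3

open AlgebraicCurve IntermediateField Fermat.Agent.Curve Fermat.Agent.T1

variable {K F k Fb : Type*} [Field K] [Field F] [Algebra K F] [Field k] [Field Fb] [Algebra k Fb]
  [IsAlgClosed K] [IsAlgClosed k]

/-- **good reduction with respect to the coordinate `x`** (the hypotheses of `tb_core_functionField`) -/
structure T3aGood (d : TbBase K F k Fb) (ℓ : ℕ) (x : F) : Prop where
  hℓ : ℓ.Prime
  hℓA : ((ℓ : ℕ) : K) ∈ d.A.nonunits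
  hℓ0 : ((ℓ : ℕ) : K) ≠ 0
  gen : IsFunctionFieldGen K F x
  sep : Algebra.IsSeparable K⟮x⟯ F
  hxO : x ∈ d.Ov
  hxiO : x⁻¹ ∈ d.Ov
  genb : IsFunctionFieldGen k Fb (d.res ⟨x, hxO⟩)
  sepb : Algebra.IsSeparable k⟮d.res ⟨x, hxO⟩⟯ Fb
  deg : Module.finrank K⟮x⟯ F = Module.finrank k⟮d.res ⟨x, hxO⟩⟯ Fb
  genus : CurveP.genusR K F ≤ CurveP.genusR k Fb
  int1 : ∀ (f : F) (hf : f ∈ d.Ov), IsIntegral ↥(Algebra.adjoin K {x}) f →
    IsIntegral ↥(Algebra.adjoin k {d.res ⟨x, hxO⟩}) (d.res ⟨f, hf⟩)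
  int2 : ∀ (f : F) (hf : f ∈ d.Ov), IsIntegral ↥(Algebra.adjoin K {x⁻¹}) f →
    IsIntegral ↥(Algebra.adjoin k {(d.res ⟨x, hxO⟩)⁻¹}) (d.res ⟨f, hf⟩)

namespace T3aGood

variable {d : TbBase K F k Fb} {ℓ : ℕ} {x : F} (hg : T3aGood d ℓ x)

/-- `x̄` -/
def xb : Fb := d.res ⟨x, hg.hxO⟩

include hg

theorem x_ne_zero : x ≠ 0 := fun h0 => hg.gen.transcendental (h0 ▸ isAlgebraic_zero)

theorem res_inv : d.res ⟨x⁻¹, hg.hxiO⟩ = hg.xb⁻¹ := by
  have hmul : d.res ⟨x, hg.hxO⟩ * d.res ⟨x⁻¹, hg.hxiO⟩ = 1 := by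
    rw [← d.res_mul' hg.hxO hg.hxiO]
    rw [d.res_congr (d.Ov.mul_mem hg.hxO hg.hxiO) (mul_inv_cancel₀ hg.x_ne_zero)]
    exact d.res_one' _
  exact eq_inv_of_mul_eq_one_right hmul

/-- the hypotheses are symmetric under `x ↦ x⁻¹` -/
theorem inv : T3aGood d ℓ x⁻¹ := by
  have hxi : (x⁻¹)⁻¹ ∈ d.Ov := by rw [inv_inv]; exact hg.hxO
  have hres : d.res ⟨x⁻¹, hg.hxiO⟩ = (d.res ⟨x, hg.hxO⟩)⁻¹ := hg.res_inv
  haveI := hg.sep
  haveI := hg.sepb
  refine
    { hℓ := hg.hℓ
      hℓA := hg.hℓA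
      hℓ0 := hg.hℓ0
      gen := CurveP.isFunctionFieldGen_inv hg.gen
      sep := CurveP.isSeparable_adjoin_inv (K := K) x
      hxO := hg.hxiO
      hxiO := hxi
      genb := by rw [hres]; exact CurveP.isFunctionFieldGen_inv hg.genb
      sepb := by rw [hres]; exact CurveP.isSeparable_adjoin_inv (K := k) _
      deg := by
        rw [hres, CurveP.adjoin_simple_inv_eq, CurveP.adjoin_simple_inv_eq]
        exact hg.deg
      genus := hg.genus
      int1 := fun f hf hint => by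
        rw [hres]
        exact hg.int2 f hf hint
      int2 := fun f hf hint => by
        rw [hres, inv_inv]
        have hint' : IsIntegral ↥(Algebra.adjoin K {x}) f := by
          have h := hint
          rw [inv_inv] at h
          exact h
        exact hg.int1 f hf hint' }

/-- the trivial chart of the lattice layer (`E = 0`, `y = 1`, `m = 1`) -/
noncomputable def chart : TbChart d :=
  haveI := hg.sep
  haveI := hg.sepb
  haveI hsepinv := CurveP.isSeparable_adjoin_inv (K := K) x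
  have hxinv := CurveP.isFunctionFieldGen_inv hg.gen
  have hE : ∀ v : Place K F, ((1 : ℕ) : ℤ) * (0 : Divisor K F) v = v.ord (1 : F) := fun v => by
    rw [Finsupp.zero_apply, mul_zero, v.ord_one]
  have hE0 : Divisor.degree (0 : Divisor K F) = 0 := map_zero _
  have hnpos : 0 < Module.finrank K⟮x⟯ F := by
    haveI := hg.gen.finite
    exact Module.finrank_pos
  { ℓ := ℓ
    hℓ := hg.hℓ
    hℓA := hg.hℓA
    hℓ0 := hg.hℓ0
    m := 1
    hm := Nat.coprime_one_left ℓ
    x := x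
    hx := hg.hxO
    hxi := hg.hxiO
    int1 := hg.int1
    int2 := hg.int2
    y := 1
    hy := d.Ov.one_mem
    hy1 := map_one d.res
    L1 := twL1 x 0
    L2 := twL1 x⁻¹ 0
    mul_mem1 := fun f s hf hs => tw_mul_mem hf hs
    mul_mem2 := fun f s hf hs => tw_mul_mem hf hs
    pow1 := fun s hs => tw_isIntegral_pow_mul hg.gen one_ne_zero hE hs
    pow2 := fun s hs => tw_isIntegral_pow_mul hxinv one_ne_zero hE hs
    exists1 := fun s hs => tw_exists_pow_mul_mem hg.gen 0 hs
    exists2 := fun s hs => by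
      obtain ⟨b, hb⟩ := tw_exists_pow_mul_mem hxinv 0 hs
      rw [inv_inv] at hb
      exact ⟨b, hb⟩
    finL := fun a b => tw_finiteDimensional_tbL hg.gen 0 a b
    finLbar := fun a b => tw_finiteDimensional_tbLbar hg.genb a b
    n := Module.finrank K⟮x⟯ F
    c := 1 - CurveP.genusR k Fb
    a0 := 2 * CurveP.genusR k Fb
    dimbar := fun a b hab => by
      have h := tw_finrank_tbLbar hg.genb a b (by
        rw [← hg.deg]
        have h1 : ((2 * CurveP.genusR k Fb : ℕ) : ℤ) ≤ ((a + b : ℕ) : ℤ) := by exact_mod_cast hab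
        have h2 : (1 : ℤ) ≤ (Module.finrank K⟮x⟯ F : ℤ) := by exact_mod_cast hnpos
        have h3 : (0 : ℤ) ≤ ((a + b : ℕ) : ℤ) := Int.natCast_nonneg _
        push_cast at h1 ⊢
        nlinarith)
      rw [← hg.deg] at h
      exact h
    dimgen := fun a b _ => by
      have h := tw_le_finrank_tbL hg.gen hE0 a b
      have h1 : (CurveP.genusR K F : ℤ) ≤ (CurveP.genusR k Fb : ℤ) := by exact_mod_cast hg.genus
      linarith }

@[simp] theorem chart_x : hg.chart.x = x := rfl
@[simp] theorem chart_L1 : hg.chart.L1 = twL1 x 0 := rfl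
@[simp] theorem chart_L2 : hg.chart.L2 = twL1 x⁻¹ 0 := rfl
theorem chart_xb : hg.chart.xb = hg.xb := rfl

end T3aGood

end Fermat.Agent.T3
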