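/-
T3-A (helper6), part 2: the ring `C = 𝒪 ∩ IntCl(K[x])` of integral functions on the chart `x ≠ ∞`.

* `C = ⋃ₐ Λ(a,0)` (unit balls of the Riemann–Roch spaces `L(a (x)_∞)`);
* (A1) `C` is a finitely generated module over `A[x]`, hence integral over `A[x]`;
* (A1') for a monic `μ ∈ A[X]`: `C = N₀ + μ(x) C` with `N₀` a finitely generated `A`-module.
-/
import Fermat.Agent.Lib.T3.Red.Good

set_option autoImplicit false
set_option linter.style.haveILetI false
set_option linter.unusedSectionVars false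

namespace Fermat.Agent.T3

open AlgebraicCurve IntermediateField Fermat.Agent.Curve Fermat.Agent.T1 Polynomial

variable {K F k Fb : Type*} [Field K] [Field F] [Algebra K F] [Field k] [Field Fb] [Algebra k Fb]
  [IsAlgClosed K] [IsAlgClosed k]

/-- `C = 𝒪 ∩ IntCl(K[x])` -/
def t3aC (d : TbBase K F k Fb) (x : F) : Subring F :=
  d.Ov ⊓ (integralClosure ↥(Algebra.adjoin K {x}) F).toSubring

theorem mem_t3aC {d : TbBase K F k Fb} {x g : F} :
    g ∈ t3aC d x ↔ g ∈ d.Ov ∧ IsIntegral ↥(Algebra.adjoin K {x}) g := Iff.rfl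

theorem t3a_algebraMap_mem_C (d : TbBase K F k Fb) (x : F) (a : ↥d.A) :
    algebraMap K F (a : K) ∈ t3aC d x :=
  ⟨d.algebraMap_mem a, isIntegral_algebraMap (x := algebraMap K ↥(Algebra.adjoin K {x}) (a : K))⟩

theorem t3a_smul_mem_C {d : TbBase K F k Fb} {x : F} (a : ↥d.A) {g : F} (hgC : g ∈ t3aC d x) :
    a • g ∈ t3aC d x := by
  have : a • g = algebraMap K F (a : K) * g := by
    show ((a : ↥d.A) : K) • g = _
    rw [Algebra.smul_def]
  rw [this]
  exact (t3aC d x).mul_mem (t3a_algebraMap_mem_C d x a) hgC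

/-- `C` as an `A`-submodule -/
def t3aCmod (d : TbBase K F k Fb) (x : F) : Submodule ↥d.A F where
  carrier := {g | g ∈ t3aC d x}
  zero_mem' := (t3aC d x).zero_mem
  add_mem' := fun h1 h2 => (t3aC d x).add_mem h1 h2
  smul_mem' := fun a _ h => t3a_smul_mem_C a h

theorem mem_t3aCmod {d : TbBase K F k Fb} {x g : F} : g ∈ t3aCmod d x ↔ g ∈ t3aC d x := Iff.rfl

variable {d : TbBase K F k Fb} {ℓ : ℕ} {x : F} (hg : T3aGood d ℓ x)

include hg

theorem t3a_x_mem_C : x ∈ t3aC d x := ⟨hg.hxO, tb_isIntegral_self x⟩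

/-- `A[x] ⊆ C` -/
theorem t3a_adjoin_le_C (r : ↥(Algebra.adjoin ↥d.A {x})) : (r : F) ∈ t3aC d x := by
  have h : Algebra.adjoin ↥d.A {x} ≤
      ({ (t3aC d x) with algebraMap_mem' := fun a => t3a_algebraMap_mem_C d x a } :
        Subalgebra ↥d.A F) := by
    refine Algebra.adjoin_le ?_
    intro y hy
    rw [Set.mem_singleton_iff] at hy
    rw [hy]
    exact t3a_x_mem_C hg
  exact h r.2

theorem t3a_mem_C_of_ball {a : ℕ} {s : F} (hs : s ∈ d.ball (hg.chart.L a 0)) : s ∈ t3aC d x := by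
  haveI := hg.sep
  exact ⟨hs.2, (tw_isIntegral_iff hg.gen).mpr (hg.chart.mem_L1_of_mem_L hs.1)⟩

theorem t3a_exists_ball_of_mem_C {g : F} (hgC : g ∈ t3aC d x) :
    ∃ a : ℕ, g ∈ d.ball (hg.chart.L a 0) := by
  haveI := hg.sep
  have h1 : g ∈ twL1 x (0 : Divisor K F) := (tw_isIntegral_iff hg.gen).mp hgC.2
  obtain ⟨a, ha⟩ := hg.chart.exists1 g h1
  refine ⟨a, ⟨?_, ha⟩, hgC.1⟩
  show x ^ 0 * g ∈ twL1 x 0
  rw [pow_zero, one_mul]
  exact h1

theorem t3a_ball_mono {a a' : ℕ} (h : a ≤ a') :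
    d.ball (hg.chart.L a 0) ≤ d.ball (hg.chart.L a' 0) :=
  d.ball_mono (hg.chart.L_mono h le_rfl)

/-- the step `Λ(a+1,0) ⊆ x Λ(a₀,1) + x Λ(a,0)` -/
theorem t3a_ball_succ {a : ℕ} (ha : hg.chart.a0 ≤ a) {s : F}
    (hs : s ∈ d.ball (hg.chart.L (a + 1) 0)) :
    ∃ u ∈ d.ball (hg.chart.L hg.chart.a0 1), ∃ v ∈ d.ball (hg.chart.L a 0),
      s = x * u + x * v := by
  have hx0 := hg.x_ne_zero
  have hs' : x⁻¹ * s ∈ d.ball (hg.chart.L a 1) := by
    refine ⟨⟨?_, ?_⟩, d.Ov.mul_mem hg.hxiO hs.2⟩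
    · show x ^ 1 * (x⁻¹ * s) ∈ twL1 x 0
      rw [pow_one, ← mul_assoc, mul_inv_cancel₀ hx0, one_mul]
      exact hg.chart.mem_L1_of_mem_L hs.1
    · show x⁻¹ ^ a * (x⁻¹ * s) ∈ twL1 x⁻¹ 0
      rw [← mul_assoc, ← pow_succ]
      exact hs.1.2
  obtain ⟨u, hu, v, hv, huv⟩ := Submodule.mem_sup.mp (hg.chart.ball_L_le_left ha 1 hs')
  refine ⟨u, hu, v, hv, ?_⟩
  rw [← mul_add, huv, ← mul_assoc, mul_inv_cancel₀ hx0, one_mul]

/-- the `A[x]`-span of a finite subset of `C` lies in `C` -/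
theorem t3a_span_le_C {T : Set F} (hTC : ∀ t ∈ T, t ∈ t3aC d x) {g : F}
    (hgN : g ∈ Submodule.span ↥(Algebra.adjoin ↥d.A {x}) T) : g ∈ t3aC d x := by
  induction hgN using Submodule.span_induction with
  | mem t ht => exact hTC t ht
  | zero => exact (t3aC d x).zero_mem
  | add u v _ _ hu hv => exact (t3aC d x).add_mem hu hv
  | smul r u _ hu =>
    have h1 : r • u = (r : F) * u := rfl
    rw [h1]
    exact (t3aC d x).mul_mem (t3a_adjoin_le_C hg r) hu

/-- an `A`-span is contained in the `A[x]`-span -/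
theorem t3a_spanA_le_spanR (S : Set F) {s : F} (hs : s ∈ Submodule.span ↥d.A S) :
    s ∈ Submodule.span ↥(Algebra.adjoin ↥d.A {x}) S :=
  (Submodule.span_le_restrictScalars ↥d.A ↥(Algebra.adjoin ↥d.A {x}) S) hs

/-- `x ·` maps an `A`-span into the `A[x]`-span of the image -/
theorem t3a_mul_spanA_mem (S : Set F) {u : F} (hu : u ∈ Submodule.span ↥d.A S) :
    x * u ∈ Submodule.span ↥(Algebra.adjoin ↥d.A {x}) ((fun u => x * u) '' S) := by
  induction hu using Submodule.span_induction with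
  | mem u hu => exact Submodule.subset_span ⟨u, hu, rfl⟩
  | zero => rw [mul_zero]; exact Submodule.zero_mem _
  | add u v _ _ hu hv => rw [mul_add]; exact Submodule.add_mem _ hu hv
  | smul a u _ hu =>
    have h1 : x * a • u = (algebraMap ↥d.A ↥(Algebra.adjoin ↥d.A {x}) a) • (x * u) := by
      rw [mul_smul_comm, algebraMap_smul]
    rw [h1]
    exact Submodule.smul_mem _ _ hu

/-- **(A1)** `C` is a finitely generated `A[x]`-module -/
theorem t3a_exists_span_eq :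
    ∃ T : Finset F, (∀ t ∈ T, t ∈ t3aC d x) ∧
      ∀ g : F, g ∈ t3aC d x ↔ g ∈ Submodule.span ↥(Algebra.adjoin ↥d.A {x}) (T : Set F) := by
  classical
  obtain ⟨S₁, hS₁⟩ := d.ball_fg (hg.chart.L hg.chart.a0 1)
  obtain ⟨S₂, hS₂⟩ := d.ball_fg (hg.chart.L hg.chart.a0 0)
  have hxR : x ∈ Algebra.adjoin ↥d.A {x} := Algebra.self_mem_adjoin_singleton _ x
  have hTeq : ((S₂ ∪ S₁.image (fun u => x * u) : Finset F) : Set F) =
      (S₂ : Set F) ∪ (fun u => x * u) '' (S₁ : Set F) := by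
    rw [Finset.coe_union, Finset.coe_image]
  have hS₂N : ∀ s ∈ d.ball (hg.chart.L hg.chart.a0 0),
      s ∈ Submodule.span ↥(Algebra.adjoin ↥d.A {x})
        ((S₂ ∪ S₁.image (fun u => x * u) : Finset F) : Set F) := by
    intro s hs
    rw [← hS₂] at hs
    rw [hTeq]
    exact Submodule.span_mono Set.subset_union_left (t3a_spanA_le_spanR hg _ hs)
  have hS₁N : ∀ u ∈ d.ball (hg.chart.L hg.chart.a0 1),
      x * u ∈ Submodule.span ↥(Algebra.adjoin ↥d.A {x})
        ((S₂ ∪ S₁.image (fun u => x * u) : Finset F) : Set F) := by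
    intro u hu
    rw [← hS₁] at hu
    rw [hTeq]
    exact Submodule.span_mono Set.subset_union_right (t3a_mul_spanA_mem hg _ hu)
  have hball : ∀ a : ℕ, ∀ s ∈ d.ball (hg.chart.L a 0),
      s ∈ Submodule.span ↥(Algebra.adjoin ↥d.A {x})
        ((S₂ ∪ S₁.image (fun u => x * u) : Finset F) : Set F) := by
    intro a
    induction a with
    | zero =>
      intro s hs
      exact hS₂N s (t3a_ball_mono hg (Nat.zero_le _) hs)
    | succ a ih =>
      intro s hs
      rcases Nat.lt_or_ge a hg.chart.a0 with hlt | hge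
      · exact hS₂N s (t3a_ball_mono hg (by omega) hs)
      · obtain ⟨u, hu, v, hv, rfl⟩ := t3a_ball_succ hg hge hs
        refine Submodule.add_mem _ (hS₁N u hu) ?_
        have h1 : x * v = (⟨x, hxR⟩ : ↥(Algebra.adjoin ↥d.A {x})) • v := rfl
        rw [h1]
        exact Submodule.smul_mem _ _ (ih v hv)
  have hTC : ∀ t ∈ (S₂ ∪ S₁.image (fun u => x * u) : Finset F), t ∈ t3aC d x := by
    intro t ht
    rw [Finset.mem_union, Finset.mem_image] at ht
    rcases ht with ht | ⟨u, hu, rfl⟩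
    · have h1 : t ∈ d.ball (hg.chart.L hg.chart.a0 0) := by
        rw [← hS₂]; exact Submodule.subset_span ht
      exact t3a_mem_C_of_ball hg h1
    · have h1 : u ∈ d.ball (hg.chart.L hg.chart.a0 1) := by
        rw [← hS₁]; exact Submodule.subset_span hu
      have h2 : x * u ∈ d.ball (hg.chart.L (hg.chart.a0 + 1) 0) := by
        refine ⟨⟨?_, ?_⟩, d.Ov.mul_mem hg.hxO h1.2⟩
        · show x ^ 0 * (x * u) ∈ twL1 x 0
          rw [pow_zero, one_mul]
          have := h1.1.1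
          rwa [pow_one] at this
        · show x⁻¹ ^ (hg.chart.a0 + 1) * (x * u) ∈ twL1 x⁻¹ 0
          rw [pow_succ, mul_assoc, ← mul_assoc x⁻¹ x u, inv_mul_cancel₀ hg.x_ne_zero, one_mul]
          exact h1.1.2
      exact t3a_mem_C_of_ball hg h2
  refine ⟨S₂ ∪ S₁.image (fun u => x * u), hTC, fun g => ⟨fun hgC => ?_, fun hgN => ?_⟩⟩
  · obtain ⟨a, ha⟩ := t3a_exists_ball_of_mem_C hg hgC
    exact hball a g ha
  · exact t3a_span_le_C hg (fun t ht => hTC t (by exact_mod_cast ht)) hgN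

/-- **(A1)** `C` is integral over `A[x]` -/
theorem t3a_isIntegral_adjoin {g : F} (hgC : g ∈ t3aC d x) :
    IsIntegral ↥(Algebra.adjoin ↥d.A {x}) g := by
  obtain ⟨T, hTC, hT⟩ := t3a_exists_span_eq hg
  refine isIntegral_of_smul_mem_submodule
    (Submodule.span ↥(Algebra.adjoin ↥d.A {x}) (T : Set F)) ?_ ⟨T, rfl⟩ g ?_
  · intro hbot
    have h1 : (1 : F) ∈ Submodule.span ↥(Algebra.adjoin ↥d.A {x}) (T : Set F) :=
      (hT 1).mp (t3aC d x).one_mem
    rw [hbot, Submodule.mem_bot] at h1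
    exact one_ne_zero h1
  · intro n hn
    rw [← hT] at hn ⊢
    exact (t3aC d x).mul_mem hgC hn

end Fermat.Agent.T3
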