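/-
T3-A (helper6), part 3: the INTERFACE of the reduction map of places.

* `T3aChartPlace d x P` : the place `P` of `F` lies on the chart `x`, i.e. `x(P) ∈ A`;
* `T3aIsRed d x r` : `r : Place K F → Place k Fb` is a reduction map of places: it has the
  EVALUATION property on both charts `x`, `x⁻¹`:
  `x(P) ∈ A`, `g ∈ C₁ = 𝒪 ∩ IntCl(K[x])`, `g(P) = c ∈ A`  ⟹  `ḡ(r P) = c̄`.

Packages B (Galois equivariance) and D (Eichler–Shimura on points) are stated against `T3aIsRed`;
package A constructs `t3aR hg` with `T3aIsRed d x (t3aR hg)` and proves uniqueness, the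
conservation law and injectivity on prime-to-`ℓ` torsion.
-/
import Fermat.Agent.Lib.T3.Red.CRing

set_option autoImplicit false
set_option linter.style.haveILetI false
set_option linter.unusedSectionVars false

namespace Fermat.Agent.T3

open AlgebraicCurve IntermediateField Fermat.Agent.Curve Fermat.Agent.Curve.PlaceAux
  Fermat.Agent.T1

variable {K F k Fb : Type*} [Field K] [Field F] [Algebra K F] [Field k] [Field Fb] [Algebra k Fb]

/-- the place `P` lies on the chart `x`: `x` is regular at `P` with value in `A` -/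
def T3aChartPlace (d : TbBase K F k Fb) (x : F) (P : Place K F) : Prop :=
  ∃ a : ↥d.A, OrdGE P (x - algebraMap K F (a : K)) 1

/-- `r` is a reduction map of places (evaluation property on the charts `x` and `x⁻¹`) -/
structure T3aIsRed (d : TbBase K F k Fb) (x : F) (r : Place K F → Place k Fb) : Prop where
  eval1 : ∀ P : Place K F, T3aChartPlace d x P → ∀ (g : F) (hgC : g ∈ t3aC d x) (c : ↥d.A),
    OrdGE P (g - algebraMap K F (c : K)) 1 →
      OrdGE (r P) (d.res ⟨g, hgC.1⟩ - algebraMap k Fb (d.resA c)) 1
  eval2 : ∀ P : Place K F, T3aChartPlace d x⁻¹ P → ∀ (g : F) (hgC : g ∈ t3aC d x⁻¹) (c : ↥d.A),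
    OrdGE P (g - algebraMap K F (c : K)) 1 →
      OrdGE (r P) (d.res ⟨g, hgC.1⟩ - algebraMap k Fb (d.resA c)) 1

end Fermat.Agent.T3
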