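/-
T3-A (helper6), part 4: Gauss units and the reduction `C → IntCl(k[x̄])`.

* `K ∩ 𝒪 = A`, Gauss units are invertible in `𝒪` (`t3a_inv_mem_Ov`);
* `res : C → IntCl(k[x̄])` is surjective (`t3a_exists_lift`) with kernel `𝔪_A C`
  (`t3a_exists_smul_of_res_eq_zero`).
-/
import Fermat.Agent.Lib.T3.Red.Iface

set_option autoImplicit false
set_option linter.style.haveILetI false
set_option linter.unusedSectionVars false

namespace Fermat.Agent.T3

open AlgebraicCurve IntermediateField Fermat.Agent.Curve Fermat.Agent.Curve.PlaceAux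
  Fermat.Agent.T1

variable {K F k Fb : Type*} [Field K] [Field F] [Algebra K F] [Field k] [Field Fb] [Algebra k Fb]

section Gauss

variable (d : TbBase K F k Fb)

/-- `K ∩ 𝒪 = A` -/
theorem t3a_mem_A_of_mem_Ov {c : K} (hc : algebraMap K F c ∈ d.Ov) : c ∈ d.A := by
  by_contra hcA
  have hc0 : c ≠ 0 := fun h0 => hcA (h0 ▸ d.A.zero_mem)
  have hcinv : c⁻¹ ∈ d.A := (d.A.mem_or_inv_mem c).resolve_left hcA
  have hmax : (⟨c⁻¹, hcinv⟩ : ↥d.A) ∈ IsLocalRing.maximalIdeal ↥d.A := by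
    rw [IsLocalRing.mem_maximalIdeal, mem_nonunits_iff]
    intro hu
    apply hcA
    obtain ⟨b, hb⟩ := isUnit_iff_exists_inv.mp hu
    have h1 : c⁻¹ * (b : K) = 1 := by
      have := congrArg Subtype.val hb
      simpa using this
    have h2 : (b : K) = c := by
      have := congrArg (fun t => c * t) h1
      simpa [← mul_assoc, mul_inv_cancel₀ hc0] using this
    rw [← h2]
    exact b.2
  have h0 : d.resA ⟨c⁻¹, hcinv⟩ = 0 := (d.resA_eq_zero_iff _).mpr hmax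
  have h1 : d.res ⟨((⟨c⁻¹, hcinv⟩ : ↥d.A) : K) • algebraMap K F c, d.smul_mem _ hc⟩ = 0 := by
    rw [d.res_smul _ hc, h0, map_zero, zero_mul]
  have h2 : ((⟨c⁻¹, hcinv⟩ : ↥d.A) : K) • algebraMap K F c = 1 := by
    show c⁻¹ • algebraMap K F c = 1
    rw [Algebra.smul_def, ← map_mul, inv_mul_cancel₀ hc0, map_one]
  rw [d.res_congr _ h2, d.res_one'] at h1
  exact one_ne_zero h1

/-- a constant which is a Gauss unit is a unit of `A` -/
theorem t3a_inv_mem_A_of_res_ne_zero {c : K} (hc : algebraMap K F c ∈ d.Ov)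
    (hres : d.res ⟨algebraMap K F c, hc⟩ ≠ 0) : c⁻¹ ∈ d.A := by
  have hcA := t3a_mem_A_of_mem_Ov d hc
  by_contra hcinv
  have hmax : (⟨c, hcA⟩ : ↥d.A) ∈ IsLocalRing.maximalIdeal ↥d.A := by
    rw [IsLocalRing.mem_maximalIdeal, mem_nonunits_iff]
    intro hu
    apply hcinv
    obtain ⟨b, hb⟩ := isUnit_iff_exists_inv.mp hu
    have h1 : c * (b : K) = 1 := by
      have := congrArg Subtype.val hb
      simpa using this
    have h2 : (b : K) = c⁻¹ := eq_inv_of_mul_eq_one_right h1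
    rw [← h2]
    exact b.2
  apply hres
  have h := d.res_algebraMap ⟨c, hcA⟩
  rw [(d.resA_eq_zero_iff _).mpr hmax, map_zero] at h
  exact h

/-- **Gauss units are invertible in `𝒪`** -/
theorem t3a_inv_mem_Ov {f : F} (hf : f ∈ d.Ov) (hres : d.res ⟨f, hf⟩ ≠ 0) : f⁻¹ ∈ d.Ov := by
  have hf0 : f ≠ 0 := by
    rintro rfl
    exact hres (d.res_zero' hf)
  obtain ⟨c, hc0, hcf, hcres⟩ := d.normalize f⁻¹ (inv_ne_zero hf0)
  have hcO : algebraMap K F c ∈ d.Ov := by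
    have h1 : algebraMap K F c = c • f⁻¹ * f := by
      rw [Algebra.smul_def, mul_assoc, inv_mul_cancel₀ hf0, mul_one]
    rw [h1]
    exact d.Ov.mul_mem hcf hf
  have hcres' : d.res ⟨algebraMap K F c, hcO⟩ ≠ 0 := by
    have h1 : algebraMap K F c = c • f⁻¹ * f := by
      rw [Algebra.smul_def, mul_assoc, inv_mul_cancel₀ hf0, mul_one]
    rw [d.res_congr hcO h1, d.res_mul' hcf hf]
    exact mul_ne_zero hcres hres
  have hcinv := t3a_inv_mem_A_of_res_ne_zero d hcO hcres'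
  have h2 : f⁻¹ = ((⟨c⁻¹, hcinv⟩ : ↥d.A) : K) • (c • f⁻¹) := by
    show f⁻¹ = c⁻¹ • c • f⁻¹
    rw [smul_smul, inv_mul_cancel₀ hc0, one_smul]
  rw [h2]
  exact d.smul_mem _ hcf

theorem t3a_res_inv {f : F} (hf : f ∈ d.Ov) (hres : d.res ⟨f, hf⟩ ≠ 0) :
    d.res ⟨f⁻¹, t3a_inv_mem_Ov d hf hres⟩ = (d.res ⟨f, hf⟩)⁻¹ := by
  have hf0 : f ≠ 0 := by
    rintro rfl
    exact hres (d.res_zero' hf)
  have hmul : d.res ⟨f, hf⟩ * d.res ⟨f⁻¹, t3a_inv_mem_Ov d hf hres⟩ = 1 := by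
    rw [← d.res_mul' hf (t3a_inv_mem_Ov d hf hres)]
    rw [d.res_congr (d.Ov.mul_mem hf (t3a_inv_mem_Ov d hf hres)) (mul_inv_cancel₀ hf0)]
    exact d.res_one' _
  exact eq_inv_of_mul_eq_one_right hmul

/-- a Gauss unit is nonzero -/
theorem t3a_ne_zero_of_res_ne_zero {f : F} (hf : f ∈ d.Ov) (hres : d.res ⟨f, hf⟩ ≠ 0) : f ≠ 0 := by
  rintro rfl
  exact hres (d.res_zero' hf)

/-- every nonzero function is a constant times a Gauss unit -/
theorem t3a_exists_gauss_unit {f : F} (hf0 : f ≠ 0) :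
    ∃ c : K, c ≠ 0 ∧ ∃ u : F, ∃ hu : u ∈ d.Ov, d.res ⟨u, hu⟩ ≠ 0 ∧ f = c • u := by
  obtain ⟨c, hc0, hcf, hcres⟩ := d.normalize f hf0
  refine ⟨c⁻¹, inv_ne_zero hc0, c • f, hcf, hcres, ?_⟩
  rw [smul_smul, inv_mul_cancel₀ hc0, one_smul]

end Gauss

variable [IsAlgClosed K] [IsAlgClosed k]
variable {d : TbBase K F k Fb} {ℓ : ℕ} {x : F} (hg : T3aGood d ℓ x)

include hg

theorem T3aGood.genb' : IsFunctionFieldGen k Fb hg.xb := hg.genb

theorem T3aGood.sepb' : Algebra.IsSeparable k⟮hg.xb⟯ Fb := hg.sepb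

theorem T3aGood.sepbi' : Algebra.IsSeparable k⟮hg.xb⁻¹⟯ Fb :=
  haveI := hg.sepb'
  CurveP.isSeparable_adjoin_inv (K := k) hg.xb

theorem T3aGood.sepi : Algebra.IsSeparable K⟮x⁻¹⟯ F :=
  haveI := hg.sep
  CurveP.isSeparable_adjoin_inv (K := K) x

theorem T3aGood.xb_ne_zero : hg.xb ≠ 0 :=
  fun h0 => hg.genb'.transcendental (h0 ▸ isAlgebraic_zero)

/-- `res` maps `C` into `IntCl(k[x̄])` -/
theorem t3a_isIntegral_res {g : F} (hgC : g ∈ t3aC d x) :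
    IsIntegral ↥(Algebra.adjoin k {hg.xb}) (d.res ⟨g, hgC.1⟩) :=
  hg.int1 g hgC.1 hgC.2

/-- **`res : C → IntCl(k[x̄])` is surjective** -/
theorem t3a_exists_lift {t : Fb} (ht : IsIntegral ↥(Algebra.adjoin k {hg.xb}) t) :
    ∃ g : F, ∃ hgC : g ∈ t3aC d x, d.res ⟨g, hgC.1⟩ = t := by
  haveI hsepb : Algebra.IsSeparable k⟮hg.xb⟯ Fb := hg.sepb'
  have h1 : t ∈ twL1 hg.xb (0 : Divisor k Fb) := (tw_isIntegral_iff hg.genb').mp ht
  obtain ⟨a, ha⟩ := tw_exists_pow_mul_mem hg.genb' 0 h1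
  have hmem : t ∈ hg.chart.Lbar (a + hg.chart.a0) 0 := by
    have h2 : t ∈ tbLbar (K := k) hg.xb (a + hg.chart.a0) 0 := by
      rw [mem_tbLbar]
      refine ⟨?_, ?_⟩
      · rw [pow_zero, one_mul]
        exact ht
      · have h3 : hg.xb⁻¹ ^ (a + hg.chart.a0) * t = hg.xb⁻¹ ^ hg.chart.a0 * (hg.xb⁻¹ ^ a * t) := by
          rw [pow_add]; ring
        rw [h3]
        haveI hsepbi : Algebra.IsSeparable k⟮hg.xb⁻¹⟯ Fb := hg.sepbi'
        have hxinv := CurveP.isFunctionFieldGen_inv hg.genb'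
        have h4 : IsIntegral ↥(Algebra.adjoin k {hg.xb⁻¹}) (hg.xb⁻¹ ^ a * t) :=
          (tw_isIntegral_iff hxinv).mpr ha
        exact (tb_isIntegral_pow_self hg.xb⁻¹ hg.chart.a0).mul h4
    exact h2
  rw [← hg.chart.resBall_L_eq (a := a + hg.chart.a0) (b := 0) (by omega)] at hmem
  obtain ⟨s, hs, hst⟩ := (d.mem_resBall).mp hmem
  exact ⟨s, t3a_mem_C_of_ball hg hs, hst⟩

/-- **the kernel of `res : C → IntCl(k[x̄])` is `𝔪_A C`** -/
theorem t3a_exists_smul_of_res_eq_zero {g : F} (hgC : g ∈ t3aC d x)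
    (h0 : d.res ⟨g, hgC.1⟩ = 0) :
    ∃ a : ↥d.A, a ∈ IsLocalRing.maximalIdeal ↥d.A ∧ ∃ g' : F, g' ∈ t3aC d x ∧
      g = ((a : ↥d.A) : K) • g' := by
  obtain ⟨n, hn⟩ := t3a_exists_ball_of_mem_C hg hgC
  obtain ⟨a, ha, g', hg', hgg'⟩ := d.exists_smul_of_res_eq_zero _ hn h0
  exact ⟨a, ha, g', t3a_mem_C_of_ball hg hg', hgg'⟩

end Fermat.Agent.T3
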