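/-
T3-A (helper6), part 5: evaluation at places and the reduction of places on one chart.

* `t3aComp hx d P` : the composite of the place `P` of `F/K` with the valuation ring `A ⊂ K`
  (functions regular at `P` with value in `A`), a valuation subring of `F`;
  `t3aEv hx d P : t3aComp → k`, `f ↦ \overline{f(P)}`;
* `t3a_value_mem` : on a chart place (`x(P) ∈ A`) every `g ∈ C = 𝒪 ∩ IntCl(K[x])` has value in `A`;
* `t3aR1 hg P hP : Place k Fb` : the reduction of a chart place, with the evaluation property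
  `t3aR1_eval` and uniqueness `t3aR1_unique`.
-/
import Fermat.Agent.Lib.T3.Red.ResC

set_option autoImplicit false
set_option linter.style.haveILetI false
set_option linter.unusedSectionVars false

namespace Fermat.Agent.T3

open AlgebraicCurve IntermediateField Fermat.Agent.Curve Fermat.Agent.Curve.PlaceAux
  Fermat.Agent.T1 IsDedekindDomain

variable {K F k Fb : Type*} [Field K] [Field F] [Algebra K F] [Field k] [Field Fb] [Algebra k Fb]

section Comp

variable [IsAlgClosed K] {x : F} (hx : IsFunctionFieldGen K F x) (d : TbBase K F k Fb)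
  (P : Place K F)

theorem t3a_ordGE_mul_of {f f' : F} {c c' : K} (h : OrdGE P (f - algebraMap K F c) 1)
    (h' : OrdGE P (f' - algebraMap K F c') 1) :
    OrdGE P (f * f' - algebraMap K F (c * c')) 1 := by
  have hf' : OrdGE P f' 0 := (ordGE_zero_iff_mem P).mpr (CurveP.RRAux.mem_of_ordGE_sub_const P h')
  have hc : OrdGE P (algebraMap K F c) 0 := (ordGE_zero_iff_mem P).mpr (algebraMap_mem P c)
  have h1 : OrdGE P ((f - algebraMap K F c) * f') (1 + 0) := h.mul P hf'
  have h2 : OrdGE P (algebraMap K F c * (f' - algebraMap K F c')) (0 + 1) := hc.mul P h'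
  have h3 := (h1.mono P (le_of_eq (by norm_num : (1 : ℤ) = 1 + 0))).add P
    (h2.mono P (le_of_eq (by norm_num : (1 : ℤ) = 0 + 1)))
  have h4 : (f - algebraMap K F c) * f' + algebraMap K F c * (f' - algebraMap K F c') =
      f * f' - algebraMap K F (c * c') := by
    rw [map_mul]; ring
  rwa [h4] at h3

include hx in
/-- the inverse of a function with nonzero value `c` has value `c⁻¹` -/
theorem t3a_ordGE_inv_of {f : F} {c : K} (hc0 : c ≠ 0) (h : OrdGE P (f - algebraMap K F c) 1) :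
    OrdGE P (f⁻¹ - algebraMap K F c⁻¹) 1 := by
  have hcF : algebraMap K F c ≠ 0 := by
    rwa [ne_eq, map_eq_zero]
  have hf0 : f ≠ 0 := by
    rintro rfl
    rw [zero_sub] at h
    have h2 := h.neg P
    rw [neg_neg] at h2
    rcases (ordGE_iff P).mp h2 with h0 | h0
    · exact hcF h0
    · rw [ord_algebraMap] at h0
      omega
  have hford : P.ord f = 0 := by
    by_contra hne
    have hfmem : f ∈ P.toValuationSubring := CurveP.RRAux.mem_of_ordGE_sub_const P h
    have h0 : 0 ≤ P.ord f := ord_nonneg_of_mem P hfmem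
    have h1 : OrdGE P f 1 := (ordGE_iff P).mpr (Or.inr (by omega))
    have h2 := h1.sub P h
    rw [sub_sub_cancel] at h2
    rcases (ordGE_iff P).mp h2 with h3 | h3
    · exact hcF h3
    · rw [ord_algebraMap] at h3
      omega
  have heq : f⁻¹ - algebraMap K F c⁻¹ = -((f - algebraMap K F c) * (f⁻¹ * algebraMap K F c⁻¹)) := by
    rw [map_inv₀]
    field_simp
    ring
  rw [heq]
  apply OrdGE.neg
  have h1 : OrdGE P (f⁻¹ * algebraMap K F c⁻¹) 0 := by
    rw [ordGE_iff]
    right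
    rw [P.ord_mul (inv_ne_zero hf0) (by rw [ne_eq, map_eq_zero]; exact inv_ne_zero hc0), P.ord_inv,
      hford, ord_algebraMap]
    norm_num
  have h2 := h.mul P h1
  exact h2.mono P (by norm_num)

/-- the composite of the place `P` with the valuation ring `A` of the constants -/
def t3aComp : ValuationSubring F where
  carrier := {f | ∃ c : ↥d.A, OrdGE P (f - algebraMap K F (c : K)) 1}
  mul_mem' := by
    rintro f f' ⟨c, hc⟩ ⟨c', hc'⟩
    exact ⟨c * c', by
      have := t3a_ordGE_mul_of P hc hc'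
      simpa using this⟩
  one_mem' := ⟨1, by
    have h : (1 : F) - algebraMap K F ((1 : ↥d.A) : K) = 0 := by simp
    rw [h]; exact ordGE_zero P 1⟩
  add_mem' := by
    rintro f f' ⟨c, hc⟩ ⟨c', hc'⟩
    refine ⟨c + c', ?_⟩
    have h := hc.add P hc'
    have h2 : f - algebraMap K F (c : K) + (f' - algebraMap K F (c' : K)) =
        f + f' - algebraMap K F ((c + c' : ↥d.A) : K) := by
      rw [show ((c + c' : ↥d.A) : K) = (c : K) + (c' : K) from rfl, map_add]; ring
    rwa [h2] at h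
  zero_mem' := ⟨0, by
    have h : (0 : F) - algebraMap K F ((0 : ↥d.A) : K) = 0 := by simp
    rw [h]; exact ordGE_zero P 1⟩
  neg_mem' := by
    rintro f ⟨c, hc⟩
    refine ⟨-c, ?_⟩
    have h := hc.neg P
    have h2 : -(f - algebraMap K F (c : K)) = -f - algebraMap K F ((-c : ↥d.A) : K) := by
      rw [show ((-c : ↥d.A) : K) = -(c : K) from rfl, map_neg]; ring
    rwa [h2] at h
  mem_or_inv_mem' := by
    intro f
    rcases eq_or_ne f 0 with rfl | hf0
    · left
      exact ⟨0, by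
        have h : (0 : F) - algebraMap K F ((0 : ↥d.A) : K) = 0 := by simp
        rw [h]; exact ordGE_zero P 1⟩
    rcases lt_trichotomy (P.ord f) 0 with hlt | heq | hgt
    · right
      refine ⟨0, ?_⟩
      have h : f⁻¹ - algebraMap K F ((0 : ↥d.A) : K) = f⁻¹ := by simp
      rw [h, ordGE_iff]
      right
      rw [P.ord_inv]
      omega
    · have hfmem : f ∈ P.toValuationSubring := mem_of_ord_nonneg P (le_of_eq heq.symm)
      obtain ⟨c, hc⟩ := exists_const_ordGE_one hx P hfmem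
      have hc0 : c ≠ 0 := by
        rintro rfl
        rw [map_zero, sub_zero] at hc
        rcases (ordGE_iff P).mp hc with h0 | h0
        · exact hf0 h0
        · omega
      rcases d.A.mem_or_inv_mem c with hcA | hcA
      · left
        exact ⟨⟨c, hcA⟩, hc⟩
      · right
        exact ⟨⟨c⁻¹, hcA⟩, t3a_ordGE_inv_of hx P hc0 hc⟩
    · left
      refine ⟨0, ?_⟩
      have h : f - algebraMap K F ((0 : ↥d.A) : K) = f := by simp
      rw [h, ordGE_iff]
      right
      omega

theorem mem_t3aComp {f : F} :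
    f ∈ t3aComp hx d P ↔ ∃ c : ↥d.A, OrdGE P (f - algebraMap K F (c : K)) 1 := Iff.rfl

/-- the value at `P`, reduced modulo `𝔪_A` -/
noncomputable def t3aEvFun (f : ↥(t3aComp hx d P)) : k := d.resA (Classical.choose f.2)

theorem t3aEvFun_eq {f : F} {c : ↥d.A} (hc : OrdGE P (f - algebraMap K F (c : K)) 1) :
    t3aEvFun hx d P ⟨f, ⟨c, hc⟩⟩ = d.resA c := by
  have h1 := Classical.choose_spec (⟨c, hc⟩ : ∃ c : ↥d.A, OrdGE P (f - algebraMap K F (c : K)) 1)
  have h2 : ((Classical.choose (⟨c, hc⟩ :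
      ∃ c : ↥d.A, OrdGE P (f - algebraMap K F (c : K)) 1) : ↥d.A) : K) = (c : K) :=
    const_unique_of_ordGE_one P h1 hc
  show d.resA _ = d.resA c
  exact congrArg d.resA (Subtype.ext h2)

/-- evaluation at `P` followed by reduction, as a ring homomorphism -/
noncomputable def t3aEv : ↥(t3aComp hx d P) →+* k where
  toFun := t3aEvFun hx d P
  map_one' := by
    have h : OrdGE P ((1 : F) - algebraMap K F ((1 : ↥d.A) : K)) 1 := by
      have h : (1 : F) - algebraMap K F ((1 : ↥d.A) : K) = 0 := by simp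
      rw [h]; exact ordGE_zero P 1
    have := t3aEvFun_eq hx d P h
    rw [map_one] at this
    exact this
  map_mul' := by
    rintro ⟨f, c, hc⟩ ⟨f', c', hc'⟩
    have h : OrdGE P (f * f' - algebraMap K F ((c * c' : ↥d.A) : K)) 1 := by
      have := t3a_ordGE_mul_of P hc hc'
      simpa using this
    have h1 := t3aEvFun_eq hx d P h
    have h2 := t3aEvFun_eq hx d P hc
    have h3 := t3aEvFun_eq hx d P hc'
    rw [map_mul] at h1
    show t3aEvFun hx d P ⟨f * f', _⟩ = t3aEvFun hx d P ⟨f, _⟩ * t3aEvFun hx d P ⟨f', _⟩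
    rw [h1, h2, h3]
  map_zero' := by
    have h : OrdGE P ((0 : F) - algebraMap K F ((0 : ↥d.A) : K)) 1 := by
      have h : (0 : F) - algebraMap K F ((0 : ↥d.A) : K) = 0 := by simp
      rw [h]; exact ordGE_zero P 1
    have := t3aEvFun_eq hx d P h
    rw [map_zero] at this
    exact this
  map_add' := by
    rintro ⟨f, c, hc⟩ ⟨f', c', hc'⟩
    have h : OrdGE P (f + f' - algebraMap K F ((c + c' : ↥d.A) : K)) 1 := by
      have h := hc.add P hc'
      have h2 : f - algebraMap K F (c : K) + (f' - algebraMap K F (c' : K)) =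
          f + f' - algebraMap K F ((c + c' : ↥d.A) : K) := by
        rw [show ((c + c' : ↥d.A) : K) = (c : K) + (c' : K) from rfl, map_add]; ring
      rwa [h2] at h
    have h1 := t3aEvFun_eq hx d P h
    have h2 := t3aEvFun_eq hx d P hc
    have h3 := t3aEvFun_eq hx d P hc'
    rw [map_add] at h1
    show t3aEvFun hx d P ⟨f + f', _⟩ = t3aEvFun hx d P ⟨f, _⟩ + t3aEvFun hx d P ⟨f', _⟩
    rw [h1, h2, h3]

theorem t3aEv_eq {f : F} {c : ↥d.A} (hc : OrdGE P (f - algebraMap K F (c : K)) 1) :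
    t3aEv hx d P ⟨f, ⟨c, hc⟩⟩ = d.resA c :=
  t3aEvFun_eq hx d P hc

/-- an element integral over a ring mapping into a valuation subring lies in it -/
theorem t3a_mem_of_isIntegral (V : ValuationSubring F) {R : Type*} [CommRing R] [Algebra R F]
    (hR : ∀ r : R, algebraMap R F r ∈ V) {f : F} (hf : IsIntegral R f) : f ∈ V := by
  obtain ⟨p, hmonic, hp⟩ := hf
  let φ : R →+* V := (algebraMap R F).codRestrict V.toSubring hR
  have hint : IsIntegral V f := by
    refine ⟨p.map φ, hmonic.map φ, ?_⟩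
    rw [Polynomial.eval₂_map]
    exact hp
  obtain ⟨g, hg⟩ := IsIntegrallyClosed.isIntegral_iff.mp hint
  rw [← hg]
  exact g.2

end Comp

section PlaceOf

variable {x : F} [hx : Fact (IsFunctionFieldGen K F x)] [hsep : Algebra.IsSeparable K⟮x⟯ F]

local instance : IsDedekindDomain (CurveP.Bx K x) := CurveP.Bx.isDedekindDomain

local instance : IsFractionRing (CurveP.Bx K x) F := CurveP.Bx.isFractionRing

/-- the place attached to a nonzero prime of `IntCl(K[x])` -/
noncomputable def t3aPlaceOf (q : Ideal (CurveP.Bx K x)) (h1 : q.IsPrime) (h2 : q ≠ ⊥) :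
    Place K F :=
  Place.ofHeightOneSpectrum (K := K) (⟨q, h1, h2⟩ : HeightOneSpectrum (CurveP.Bx K x))

theorem t3a_mem_iff_ordGE (q : Ideal (CurveP.Bx K x)) (h1 : q.IsPrime) (h2 : q ≠ ⊥)
    (b : CurveP.Bx K x) :
    b ∈ q ↔ OrdGE (t3aPlaceOf q h1 h2) (algebraMap (CurveP.Bx K x) F b) 1 := by
  rw [OrdGE, t3aPlaceOf, ofHeightOneSpectrum_adicValuation,
    HeightOneSpectrum.valuation_of_algebraMap]
  have h := (⟨q, h1, h2⟩ : HeightOneSpectrum (CurveP.Bx K x)).intValuation_le_pow_iff_mem b 1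
  rw [pow_one] at h
  exact h.symm

theorem t3a_placeOf_unique (q : Ideal (CurveP.Bx K x)) (h1 : q.IsPrime) (h2 : q ≠ ⊥)
    (v : Place K F) (hxv : x ∈ v.toValuationSubring)
    (hv : ∀ b : CurveP.Bx K x, b ∈ q → OrdGE v (algebraMap (CurveP.Bx K x) F b) 1) :
    v = t3aPlaceOf q h1 h2 := by
  have hle : q ≤ (centre v (CurveP.PlaceAux.Bx_le v hxv)).asIdeal := by
    intro b hb
    rw [mem_centre_iff]
    rcases (ordGE_iff v).mp (hv b hb) with h0 | h0
    · left
      exact (IsFractionRing.to_map_eq_zero_iff (K := F)).mp h0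
    · right
      omega
  have hmax : q.IsMaximal := h1.isMaximal h2
  have heq : q = (centre v (CurveP.PlaceAux.Bx_le v hxv)).asIdeal :=
    hmax.eq_of_le (centre v (CurveP.PlaceAux.Bx_le v hxv)).isPrime.ne_top hle
  rw [eq_ofHeightOneSpectrum_centre v (CurveP.PlaceAux.Bx_le v hxv), t3aPlaceOf]
  congr 1
  ext1
  exact heq.symm

end PlaceOf

section Chart

variable [IsAlgClosed K] [IsAlgClosed k]
variable {d : TbBase K F k Fb} {ℓ : ℕ} {x : F} (hg : T3aGood d ℓ x)

include hg

/-- on a chart place, `A[x]` lies in the composite valuation ring -/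
theorem t3a_adjoin_mem_comp {P : Place K F} (hP : T3aChartPlace d x P)
    (r : ↥(Algebra.adjoin ↥d.A {x})) : (r : F) ∈ t3aComp hg.gen d P := by
  let S : Subalgebra ↥d.A F :=
    { (t3aComp hg.gen d P).toSubring with
      algebraMap_mem' := fun a => by
        refine ⟨a, ?_⟩
        have h : algebraMap ↥d.A F a - algebraMap K F (a : K) = 0 := sub_self _
        rw [h]
        exact ordGE_zero P 1 }
  have h : Algebra.adjoin ↥d.A {x} ≤ S := Algebra.adjoin_le (by
    intro y hy
    rw [Set.mem_singleton_iff] at hy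
    rw [hy]
    exact hP)
  exact h r.2

/-- **on a chart place the functions of `C` have values in `A`** -/
theorem t3a_value_mem {P : Place K F} (hP : T3aChartPlace d x P) {g : F} (hgC : g ∈ t3aC d x) :
    ∃ c : ↥d.A, OrdGE P (g - algebraMap K F (c : K)) 1 := by
  have h1 : ∀ r : ↥(Algebra.adjoin ↥d.A {x}),
      algebraMap ↥(Algebra.adjoin ↥d.A {x}) F r ∈ t3aComp hg.gen d P :=
    fun r => t3a_adjoin_mem_comp hg hP r
  have h2 : IsIntegral ↥(Algebra.adjoin ↥d.A {x}) g := t3a_isIntegral_adjoin hg hgC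
  have h3 : g ∈ t3aComp hg.gen d P := t3a_mem_of_isIntegral (t3aComp hg.gen d P) h1 h2
  exact h3

/-- `g ↦ \overline{g(P)}` on `C` -/
noncomputable def t3aPhi {P : Place K F} (hP : T3aChartPlace d x P) : ↥(t3aC d x) →+* k :=
  (t3aEv hg.gen d P).comp
    (Subring.inclusion (show t3aC d x ≤ (t3aComp hg.gen d P).toSubring from
      fun _ hgC => t3a_value_mem hg hP hgC))

theorem t3aPhi_eq {P : Place K F} (hP : T3aChartPlace d x P) {g : F} (hgC : g ∈ t3aC d x)
    {c : ↥d.A} (hc : OrdGE P (g - algebraMap K F (c : K)) 1) :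
    t3aPhi hg hP ⟨g, hgC⟩ = d.resA c :=
  t3aEv_eq hg.gen d P hc

/-- the reduction `C → IntCl(k[x̄])` -/
noncomputable def t3aRho : ↥(t3aC d x) →+* ↥(CurveP.Bx k hg.xb) :=
  RingHom.codRestrict (d.res.comp (Subring.inclusion (show t3aC d x ≤ d.Ov from inf_le_left)))
    (CurveP.Bx k hg.xb) (fun g => t3a_isIntegral_res hg g.2)

theorem t3aRho_coe {g : F} (hgC : g ∈ t3aC d x) :
    ((t3aRho hg ⟨g, hgC⟩ : ↥(CurveP.Bx k hg.xb)) : Fb) = d.res ⟨g, hgC.1⟩ := rfl

theorem t3aRho_surjective : Function.Surjective (t3aRho hg) := by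
  intro t
  obtain ⟨g, hgC, hgt⟩ := t3a_exists_lift hg t.2
  exact ⟨⟨g, hgC⟩, Subtype.ext hgt⟩

theorem t3aRho_ker_le {P : Place K F} (hP : T3aChartPlace d x P) :
    RingHom.ker (t3aRho hg) ≤ RingHom.ker (t3aPhi hg hP) := by
  rintro ⟨g, hgC⟩ hker
  rw [RingHom.mem_ker] at hker ⊢
  have h0 : d.res ⟨g, hgC.1⟩ = 0 := by
    have := congrArg Subtype.val hker
    exact this
  obtain ⟨a, ha, g', hg'C, hgg'⟩ := t3a_exists_smul_of_res_eq_zero hg hgC h0
  obtain ⟨c', hc'⟩ := t3a_value_mem hg hP hg'C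
  have hval : OrdGE P (g - algebraMap K F ((a * c' : ↥d.A) : K)) 1 := by
    have h1 := hc'.smul P (a : K)
    have h2 : (a : K) • (g' - algebraMap K F (c' : K)) =
        g - algebraMap K F ((a * c' : ↥d.A) : K) := by
      rw [hgg', show ((a * c' : ↥d.A) : K) = (a : K) * (c' : K) from rfl, map_mul, smul_sub,
        Algebra.smul_def (a : K) (algebraMap K F (c' : K))]
    rwa [h2] at h1
  rw [t3aPhi_eq hg hP hgC hval, map_mul, (d.resA_eq_zero_iff a).mpr ha, zero_mul]

/-- the centre of the reduction of the chart place `P` -/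
noncomputable def t3aQ {P : Place K F} (hP : T3aChartPlace d x P) :
    Ideal ↥(CurveP.Bx k hg.xb) :=
  (RingHom.ker (t3aPhi hg hP)).map (t3aRho hg)

theorem mem_t3aQ {P : Place K F} (hP : T3aChartPlace d x P) {t : ↥(CurveP.Bx k hg.xb)} :
    t ∈ t3aQ hg hP ↔ ∃ g : ↥(t3aC d x), t3aPhi hg hP g = 0 ∧ t3aRho hg g = t := by
  rw [t3aQ, Ideal.mem_map_iff_of_surjective _ (t3aRho_surjective hg)]
  simp only [RingHom.mem_ker]

theorem t3aQ_isPrime {P : Place K F} (hP : T3aChartPlace d x P) : (t3aQ hg hP).IsPrime :=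
  haveI := RingHom.ker_isPrime (t3aPhi hg hP)
  Ideal.map_isPrime_of_surjective (t3aRho_surjective hg) (t3aRho_ker_le hg hP)

theorem t3aQ_ne_bot {P : Place K F} (hP : T3aChartPlace d x P) : t3aQ hg hP ≠ ⊥ := by
  obtain ⟨a, ha⟩ := id hP
  have hxa : x - algebraMap K F (a : K) ∈ t3aC d x :=
    (t3aC d x).sub_mem (t3a_x_mem_C hg) (t3a_algebraMap_mem_C d x a)
  have hmem : t3aRho hg ⟨x - algebraMap K F (a : K), hxa⟩ ∈ t3aQ hg hP := by
    rw [mem_t3aQ]
    refine ⟨_, ?_, rfl⟩
    have h0 : OrdGE P (x - algebraMap K F (a : K) - algebraMap K F ((0 : ↥d.A) : K)) 1 := by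
      simpa using ha
    rw [t3aPhi_eq hg hP hxa h0, map_zero]
  intro hbot
  rw [hbot, Ideal.mem_bot] at hmem
  have h1 : d.res ⟨x - algebraMap K F (a : K), hxa.1⟩ = 0 := by
    have := congrArg Subtype.val hmem
    exact this
  rw [d.res_sub' hg.hxO (d.algebraMap_mem a), d.res_algebraMap, sub_eq_zero] at h1
  apply hg.genb'.transcendental
  have h2 : hg.xb = algebraMap k Fb (d.resA a) := h1
  rw [h2]
  exact isAlgebraic_algebraMap _

/-- **the reduction of a chart place** -/
noncomputable def t3aR1 (P : Place K F) (hP : T3aChartPlace d x P) : Place k Fb :=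
  haveI : Fact (IsFunctionFieldGen k Fb hg.xb) := ⟨hg.genb'⟩
  haveI := hg.sepb'
  t3aPlaceOf (t3aQ hg hP) (t3aQ_isPrime hg hP) (t3aQ_ne_bot hg hP)

/-- **evaluation property**: `g(P) = c ⟹ ḡ(r P) = c̄` -/
theorem t3aR1_eval {P : Place K F} (hP : T3aChartPlace d x P) {g : F} (hgC : g ∈ t3aC d x)
    {c : ↥d.A} (hc : OrdGE P (g - algebraMap K F (c : K)) 1) :
    OrdGE (t3aR1 hg P hP) (d.res ⟨g, hgC.1⟩ - algebraMap k Fb (d.resA c)) 1 := by
  haveI : Fact (IsFunctionFieldGen k Fb hg.xb) := ⟨hg.genb'⟩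
  haveI := hg.sepb'
  have hgc : g - algebraMap K F (c : K) ∈ t3aC d x :=
    (t3aC d x).sub_mem hgC (t3a_algebraMap_mem_C d x c)
  have hmem : t3aRho hg ⟨g - algebraMap K F (c : K), hgc⟩ ∈ t3aQ hg hP := by
    rw [mem_t3aQ]
    refine ⟨_, ?_, rfl⟩
    have h0 : OrdGE P (g - algebraMap K F (c : K) - algebraMap K F ((0 : ↥d.A) : K)) 1 := by
      simpa using hc
    rw [t3aPhi_eq hg hP hgc h0, map_zero]
  have h1 := (t3a_mem_iff_ordGE (t3aQ hg hP) (t3aQ_isPrime hg hP) (t3aQ_ne_bot hg hP) _).mp hmem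
  have h2 : algebraMap ↥(CurveP.Bx k hg.xb) Fb (t3aRho hg ⟨g - algebraMap K F (c : K), hgc⟩) =
      d.res ⟨g, hgC.1⟩ - algebraMap k Fb (d.resA c) := by
    show d.res ⟨g - algebraMap K F (c : K), hgc.1⟩ = _
    rw [d.res_sub' hgC.1 (d.algebraMap_mem c), d.res_algebraMap]
  rw [h2] at h1
  exact h1

/-- **uniqueness of the reduction of a chart place** -/
theorem t3aR1_unique {P : Place K F} (hP : T3aChartPlace d x P) (Q : Place k Fb)
    (hQ : ∀ (g : F) (hgC : g ∈ t3aC d x) (c : ↥d.A), OrdGE P (g - algebraMap K F (c : K)) 1 →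
      OrdGE Q (d.res ⟨g, hgC.1⟩ - algebraMap k Fb (d.resA c)) 1) :
    Q = t3aR1 hg P hP := by
  haveI : Fact (IsFunctionFieldGen k Fb hg.xb) := ⟨hg.genb'⟩
  haveI := hg.sepb'
  have hxQ : hg.xb ∈ Q.toValuationSubring := by
    obtain ⟨a, ha⟩ := id hP
    have h1 := hQ x (t3a_x_mem_C hg) a ha
    exact CurveP.RRAux.mem_of_ordGE_sub_const Q h1
  refine t3a_placeOf_unique (t3aQ hg hP) (t3aQ_isPrime hg hP) (t3aQ_ne_bot hg hP) Q hxQ ?_
  intro b hb
  rw [mem_t3aQ] at hb
  obtain ⟨⟨g, hgC⟩, hphi, hrho⟩ := hb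
  obtain ⟨c, hc⟩ := t3a_value_mem hg hP hgC
  have hc0 : d.resA c = 0 := by
    rw [← t3aPhi_eq hg hP hgC hc]
    exact hphi
  have h1 := hQ g hgC c hc
  rw [hc0, map_zero, sub_zero] at h1
  have h2 : algebraMap ↥(CurveP.Bx k hg.xb) Fb b = d.res ⟨g, hgC.1⟩ := by
    rw [← hrho]
    rfl
  rw [h2]
  exact h1

end Chart

end Fermat.Agent.T3
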