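/-
T3-A (helper6), part 6: the global reduction map of places `t3aR hg : Place K F → Place k Fb`.

* `t3a_chart_cases` : every place lies on the chart `x` or on the chart `x⁻¹` (with `x⁻¹(P) ∈ 𝔪_A`);
* `t3aR1_eval_inv` : on the overlap the reduction on the chart `x` has the evaluation property of
  the chart `x⁻¹` (consistency);
* `t3aR hg`, `t3aR_isRed hg : T3aIsRed d x (t3aR hg)`;
* `T3aIsRed.eq_t3aR`, `T3aIsRed.unique` : a reduction map is unique;
* `T3aIsRed.chartPlace_of_ord_nonneg` : `r⁻¹(x̄ ≠ ∞) = {x(P) ∈ A}`.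
-/
import Fermat.Agent.Lib.T3.Red.Eval

set_option autoImplicit false
set_option linter.style.haveILetI false
set_option linter.unusedSectionVars false

namespace Fermat.Agent.T3

open AlgebraicCurve IntermediateField Fermat.Agent.Curve Fermat.Agent.Curve.PlaceAux
  Fermat.Agent.T1 IsDedekindDomain

variable {K F k Fb : Type*} [Field K] [Field F] [Algebra K F] [Field k] [Field Fb] [Algebra k Fb]
variable [IsAlgClosed K] [IsAlgClosed k]
variable {d : TbBase K F k Fb} {ℓ : ℕ} {x : F}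

/-- a nonzero constant has no zero -/
theorem t3a_const_eq_zero_of_ordGE (P : Place K F) {c : K} (h : OrdGE P (algebraMap K F c) 1) :
    c = 0 := by
  rcases (ordGE_iff P).mp h with h0 | h0
  · exact (map_eq_zero _).mp h0
  · rw [ord_algebraMap] at h0
    omega

/-- the inverse of a constant outside `A` lies in `𝔪_A` -/
theorem t3a_inv_mem_maximalIdeal (d : TbBase K F k Fb) {b : K} (hb : b ∉ d.A) :
    ∃ hbi : b⁻¹ ∈ d.A, (⟨b⁻¹, hbi⟩ : ↥d.A) ∈ IsLocalRing.maximalIdeal ↥d.A := by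
  have hb0 : b ≠ 0 := fun h0 => hb (h0 ▸ d.A.zero_mem)
  have hbi : b⁻¹ ∈ d.A := (d.A.mem_or_inv_mem b).resolve_left hb
  refine ⟨hbi, ?_⟩
  rw [IsLocalRing.mem_maximalIdeal, mem_nonunits_iff]
  intro hu
  apply hb
  obtain ⟨c, hc⟩ := isUnit_iff_exists_inv.mp hu
  have h1 : b⁻¹ * (c : K) = 1 := by
    have := congrArg Subtype.val hc
    simpa using this
  have h2 : (c : K) = b := by
    have := congrArg (fun t => b * t) h1
    simpa [← mul_assoc, mul_inv_cancel₀ hb0] using this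
  rw [← h2]
  exact c.2

section Cases

variable (hg : T3aGood d ℓ x)

include hg

/-- every place lies on one of the two charts -/
theorem t3a_chart_cases (P : Place K F) :
    T3aChartPlace d x P ∨ ∃ a : ↥d.A, a ∈ IsLocalRing.maximalIdeal ↥d.A ∧
      OrdGE P (x⁻¹ - algebraMap K F (a : K)) 1 := by
  rcases lt_or_ge (P.ord x) 0 with hlt | hge
  · right
    refine ⟨0, zero_mem _, ?_⟩
    have h : x⁻¹ - algebraMap K F ((0 : ↥d.A) : K) = x⁻¹ := by simp
    rw [h, ordGE_iff]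
    right
    rw [P.ord_inv]
    omega
  · have hxmem : x ∈ P.toValuationSubring := mem_of_ord_nonneg P hge
    obtain ⟨b, hb⟩ := exists_const_ordGE_one hg.gen P hxmem
    by_cases hbA : b ∈ d.A
    · left
      exact ⟨⟨b, hbA⟩, hb⟩
    · right
      obtain ⟨hbi, hmax⟩ := t3a_inv_mem_maximalIdeal d hbA
      have hb0 : b ≠ 0 := fun h0 => hbA (h0 ▸ d.A.zero_mem)
      exact ⟨⟨b⁻¹, hbi⟩, hmax, t3a_ordGE_inv_of hg.gen P hb0 hb⟩

theorem t3a_chartPlace_inv_of_not {P : Place K F} (hP : ¬ T3aChartPlace d x P) :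
    T3aChartPlace d x⁻¹ P := by
  rcases t3a_chart_cases hg P with h | ⟨a, -, ha⟩
  · exact absurd h hP
  · exact ⟨a, ha⟩

/-- `C₂ ⊆ x⁻ⁿ C₁` -/
theorem t3a_exists_pow_mul_mem_C {g : F} (hgC : g ∈ t3aC d x⁻¹) :
    ∃ n : ℕ, x ^ n * g ∈ t3aC d x := by
  haveI := hg.sep
  haveI := hg.sepi
  have hxinv := CurveP.isFunctionFieldGen_inv hg.gen
  have h1 : g ∈ twL1 x⁻¹ (0 : Divisor K F) := (tw_isIntegral_iff hxinv).mp hgC.2
  obtain ⟨n, hn⟩ := tw_exists_pow_mul_mem hxinv 0 h1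
  rw [inv_inv] at hn
  refine ⟨n, d.Ov.mul_mem (d.Ov.pow_mem hg.hxO n) hgC.1, ?_⟩
  exact (tw_isIntegral_iff hg.gen).mpr hn

omit hg in
/-- powers: `f(P) = c ⟹ fⁿ(P) = cⁿ` -/
theorem t3a_ordGE_pow_of (P : Place K F) {f : F} {c : K} (h : OrdGE P (f - algebraMap K F c) 1)
    (n : ℕ) : OrdGE P (f ^ n - algebraMap K F (c ^ n)) 1 := by
  induction n with
  | zero =>
    rw [pow_zero, pow_zero, map_one, sub_self]
    exact ordGE_zero P 1
  | succ n ih =>
    rw [pow_succ, pow_succ]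
    exact t3a_ordGE_mul_of P ih h

/-- **consistency**: on the overlap of the charts the reduction on the chart `x` has the
evaluation property of the chart `x⁻¹` -/
theorem t3aR1_eval_inv {P : Place K F} (hP : T3aChartPlace d x P) (hP' : T3aChartPlace d x⁻¹ P)
    {g : F} (hgC : g ∈ t3aC d x⁻¹) {c : ↥d.A} (hc : OrdGE P (g - algebraMap K F (c : K)) 1) :
    OrdGE (t3aR1 hg P hP) (d.res ⟨g, hgC.1⟩ - algebraMap k Fb (d.resA c)) 1 := by
  obtain ⟨a, ha⟩ := id hP
  obtain ⟨a', ha'⟩ := id hP'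
  set Q := t3aR1 hg P hP with hQ
  -- `a a' = 1`
  have haa' : (a : K) * (a' : K) = 1 := by
    have h1 := t3a_ordGE_mul_of P ha ha'
    rw [mul_inv_cancel₀ hg.x_ne_zero] at h1
    have h2 : (1 : F) - algebraMap K F ((a : K) * (a' : K)) =
        algebraMap K F (1 - (a : K) * (a' : K)) := by
      rw [map_sub, map_one]
    rw [h2] at h1
    have h3 := t3a_const_eq_zero_of_ordGE P h1
    rw [sub_eq_zero] at h3
    exact h3.symm
  have hresa : d.resA a * d.resA a' = 1 := by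
    rw [← map_mul]
    have : a * a' = 1 := Subtype.ext haa'
    rw [this, map_one]
  have hresa0 : d.resA a ≠ 0 := left_ne_zero_of_mul_eq_one hresa
  -- `x̄(Q) = ā`
  have hxQ : OrdGE Q (hg.xb - algebraMap k Fb (d.resA a)) 1 :=
    t3aR1_eval hg hP (t3a_x_mem_C hg) ha
  -- `x̄⁻¹` is regular at `Q`, hence so is `ḡ`
  have hxbQ : Q.ord hg.xb = 0 := by
    have hmem : hg.xb ∈ Q.toValuationSubring := CurveP.RRAux.mem_of_ordGE_sub_const Q hxQ
    have h0 : 0 ≤ Q.ord hg.xb := ord_nonneg_of_mem Q hmem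
    by_contra hne
    have h1 : OrdGE Q hg.xb 1 := (ordGE_iff Q).mpr (Or.inr (by omega))
    have h2 := h1.sub Q hxQ
    rw [sub_sub_cancel] at h2
    have h3 := t3a_const_eq_zero_of_ordGE Q h2
    exact hresa0 h3
  have hxbiQ : hg.xb⁻¹ ∈ Q.toValuationSubring := by
    apply mem_of_ord_nonneg
    rw [Q.ord_inv, hxbQ, neg_zero]
  have hgbQ : d.res ⟨g, hgC.1⟩ ∈ Q.toValuationSubring := by
    have hint : IsIntegral ↥(Algebra.adjoin k {hg.xb⁻¹}) (d.res ⟨g, hgC.1⟩) :=
      hg.int2 g hgC.1 hgC.2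
    exact CurveP.PlaceAux.mem_of_isIntegral_of_algebraMap_mem Q
      (CurveP.PlaceAux.Ax_le Q hxbiQ) hint
  -- the function `xⁿ g ∈ C₁`
  obtain ⟨n, hn⟩ := t3a_exists_pow_mul_mem_C hg hgC
  have hval : OrdGE P (x ^ n * g - algebraMap K F ((a ^ n * c : ↥d.A) : K)) 1 := by
    have h1 := t3a_ordGE_mul_of P (t3a_ordGE_pow_of P ha n) hc
    exact h1
  have h1 := t3aR1_eval hg hP hn hval
  have hres : d.res ⟨x ^ n * g, hn.1⟩ = hg.xb ^ n * d.res ⟨g, hgC.1⟩ := by
    rw [d.res_mul' (d.Ov.pow_mem hg.hxO n) hgC.1, d.res_pow' hg.hxO]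
    rfl
  rw [hres, map_mul, map_pow, map_mul, map_pow] at h1
  -- `x̄ⁿ ḡ - āⁿ c̄ = (x̄ⁿ - āⁿ) ḡ + āⁿ (ḡ - c̄)`
  have h2 : OrdGE Q ((hg.xb ^ n - algebraMap k Fb (d.resA a) ^ n) * d.res ⟨g, hgC.1⟩) 1 := by
    have h3 := t3a_ordGE_pow_of Q hxQ n
    rw [map_pow] at h3
    have h4 := h3.mul Q ((ordGE_zero_iff_mem Q).mpr hgbQ)
    exact h4.mono Q (by norm_num)
  have h3 := h1.sub Q h2
  have h4 : hg.xb ^ n * d.res ⟨g, hgC.1⟩ -
      algebraMap k Fb (d.resA a) ^ n * algebraMap k Fb (d.resA c) -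
      (hg.xb ^ n - algebraMap k Fb (d.resA a) ^ n) * d.res ⟨g, hgC.1⟩ =
      (d.resA a) ^ n • (d.res ⟨g, hgC.1⟩ - algebraMap k Fb (d.resA c)) := by
    rw [Algebra.smul_def, map_pow]
    ring
  rw [h4] at h3
  have h5 := h3.smul Q ((d.resA a) ^ n)⁻¹
  rw [smul_smul, inv_mul_cancel₀ (pow_ne_zero n hresa0), one_smul] at h5
  exact h5

end Cases

section Global

variable (hg : T3aGood d ℓ x)

open Classical in
/-- **the reduction map of places** -/
noncomputable def t3aR (P : Place K F) : Place k Fb :=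
  if h : T3aChartPlace d x P then t3aR1 hg P h
  else t3aR1 hg.inv P (t3a_chartPlace_inv_of_not hg h)

theorem t3aR_of_chartPlace {P : Place K F} (h : T3aChartPlace d x P) :
    t3aR hg P = t3aR1 hg P h := by
  rw [t3aR, dif_pos h]

theorem t3aR_of_not_chartPlace {P : Place K F} (h : ¬ T3aChartPlace d x P) :
    t3aR hg P = t3aR1 hg.inv P (t3a_chartPlace_inv_of_not hg h) := by
  rw [t3aR, dif_neg h]

/-- **`t3aR hg` is a reduction map of places** -/
theorem t3aR_isRed : T3aIsRed d x (t3aR hg) where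
  eval1 := fun P hP g hgC c hc => by
    rw [t3aR_of_chartPlace hg hP]
    exact t3aR1_eval hg hP hgC hc
  eval2 := fun P hP' g hgC c hc => by
    by_cases hP : T3aChartPlace d x P
    · rw [t3aR_of_chartPlace hg hP]
      exact t3aR1_eval_inv hg hP hP' hgC hc
    · rw [t3aR_of_not_chartPlace hg hP]
      exact t3aR1_eval hg.inv _ hgC hc

end Global

namespace T3aIsRed

variable {r : Place K F → Place k Fb}

/-- the two charts play symmetric roles -/
theorem inv (hr : T3aIsRed d x r) : T3aIsRed d x⁻¹ r where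
  eval1 := hr.eval2
  eval2 := by
    rw [inv_inv]
    exact hr.eval1

variable (hg : T3aGood d ℓ x)

include hg

theorem eq_t3aR1 (hr : T3aIsRed d x r) {P : Place K F} (hP : T3aChartPlace d x P) :
    r P = t3aR1 hg P hP :=
  t3aR1_unique hg hP (r P) (fun g hgC c hc => hr.eval1 P hP g hgC c hc)

theorem eq_t3aR1_inv (hr : T3aIsRed d x r) {P : Place K F} (hP : T3aChartPlace d x⁻¹ P) :
    r P = t3aR1 hg.inv P hP :=
  t3aR1_unique hg.inv hP (r P) (fun g hgC c hc => hr.eval2 P hP g hgC c hc)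

/-- **a reduction map of places is unique** -/
theorem eq_t3aR (hr : T3aIsRed d x r) : r = t3aR hg := by
  funext P
  by_cases hP : T3aChartPlace d x P
  · rw [t3aR_of_chartPlace hg hP]
    exact hr.eq_t3aR1 hg hP
  · rw [t3aR_of_not_chartPlace hg hP]
    exact hr.eq_t3aR1_inv hg _

/-- **uniqueness**: a place with the evaluation property of `P` on the chart `x` is `r P` -/
theorem unique (hr : T3aIsRed d x r) {P : Place K F} (hP : T3aChartPlace d x P) (Q : Place k Fb)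
    (hQ : ∀ (g : F) (hgC : g ∈ t3aC d x) (c : ↥d.A), OrdGE P (g - algebraMap K F (c : K)) 1 →
      OrdGE Q (d.res ⟨g, hgC.1⟩ - algebraMap k Fb (d.resA c)) 1) :
    Q = r P := by
  rw [hr.eq_t3aR1 hg hP]
  exact t3aR1_unique hg hP Q hQ

/-- uniqueness on the chart `x⁻¹` -/
theorem unique_inv (hr : T3aIsRed d x r) {P : Place K F} (hP : T3aChartPlace d x⁻¹ P)
    (Q : Place k Fb)
    (hQ : ∀ (g : F) (hgC : g ∈ t3aC d x⁻¹) (c : ↥d.A), OrdGE P (g - algebraMap K F (c : K)) 1 →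
      OrdGE Q (d.res ⟨g, hgC.1⟩ - algebraMap k Fb (d.resA c)) 1) :
    Q = r P := by
  rw [hr.eq_t3aR1_inv hg hP]
  exact t3aR1_unique hg.inv hP Q hQ

/-- a chart place reduces to a place where `x̄` is regular -/
theorem ord_nonneg_of_chartPlace (hr : T3aIsRed d x r) {P : Place K F}
    (hP : T3aChartPlace d x P) : 0 ≤ (r P).ord hg.xb := by
  obtain ⟨a, ha⟩ := id hP
  have h1 := hr.eval1 P hP x (t3a_x_mem_C hg) a ha
  exact ord_nonneg_of_mem _ (CurveP.RRAux.mem_of_ordGE_sub_const (r P) h1)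

/-- **`r⁻¹(x̄ ≠ ∞)` consists of chart places** -/
theorem chartPlace_of_ord_nonneg (hr : T3aIsRed d x r) {P : Place K F}
    (h : 0 ≤ (r P).ord hg.xb) : T3aChartPlace d x P := by
  rcases t3a_chart_cases hg P with hP | ⟨a, ha, hPa⟩
  · exact hP
  exfalso
  have h1 := hr.eval2 P ⟨a, hPa⟩ x⁻¹ (t3a_x_mem_C hg.inv) a hPa
  rw [(d.resA_eq_zero_iff a).mpr ha, map_zero, sub_zero, hg.res_inv] at h1
  rcases (ordGE_iff (r P)).mp h1 with h0 | h0
  · exact hg.xb_ne_zero (inv_eq_zero.mp h0)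
  · rw [(r P).ord_inv] at h0
    omega

end T3aIsRed

end Fermat.Agent.T3
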