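/-
T3-A (helper6), part 11: interpolation.  For finitely many places `Q ∈ S` of `F̄` on the chart
`x̄ ≠ ∞` and values `v Q ∈ k` there is `g ∈ C = 𝒪 ∩ IntCl(K[x])` with `(res g)(Q) = v Q` for all
`Q ∈ S` (`t3a_exists_interpolation`); indicator functions `t3a_exists_indicator`.
-/
import Fermat.Agent.Lib.T3.Red.Cons

set_option autoImplicit false
set_option linter.style.haveILetI false
set_option linter.unusedSectionVars false

namespace Fermat.Agent.T3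

open AlgebraicCurve IntermediateField Fermat.Agent.Curve Fermat.Agent.Curve.PlaceAux
  Fermat.Agent.T1 IsDedekindDomain

variable {K F k Fb : Type*} [Field K] [Field F] [Algebra K F] [Field k] [Field Fb] [Algebra k Fb]

section Ded

variable [IsAlgClosed K] {x : F} (hx : IsFunctionFieldGen K F x) [Algebra.IsSeparable K⟮x⟯ F]

include hx

/-- indicator functions in `IntCl(K[x])` -/
theorem t3a_exists_indicator_ded (S : Finset (Place K F))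
    (hS : ∀ Q ∈ S, 0 ≤ Q.ord x) (Q₀ : Place K F) (hQ₀ : Q₀ ∈ S) :
    ∃ t : F, IsIntegral ↥(Algebra.adjoin K {x}) t ∧ OrdGE Q₀ (t - 1) 1 ∧
      ∀ Q ∈ S, Q ≠ Q₀ → OrdGE Q t 1 := by
  classical
  haveI : Fact (IsFunctionFieldGen K F x) := ⟨hx⟩
  have hxQ₀ : x ∈ Q₀.toValuationSubring := mem_of_ord_nonneg Q₀ (hS Q₀ hQ₀)
  have hex : ∀ Q : Place K F, ∃ s : F, IsIntegral ↥(Algebra.adjoin K {x}) s ∧ s ≠ 0 ∧
      Q₀.ord s = 0 ∧ (Q ∈ S → Q ≠ Q₀ → OrdGE Q s 1) := by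
    intro Q
    by_cases hQ : Q ∈ S ∧ Q ≠ Q₀
    · obtain ⟨s, hs1, hs2, hs3, hs4⟩ := t3a_exists_separating Q₀ Q hxQ₀
        (mem_of_ord_nonneg Q (hS Q hQ.1)) hQ.2
      exact ⟨s, hs1, hs2, hs4, fun _ _ => hs3⟩
    · exact ⟨1, isIntegral_one, one_ne_zero, Q₀.ord_one, fun h1 h2 => absurd ⟨h1, h2⟩ hQ⟩
  choose s hs1 hs2 hs3 hs4 using hex
  have hPint : IsIntegral ↥(Algebra.adjoin K {x}) (∏ Q ∈ S.erase Q₀, s Q) :=
    IsIntegral.prod _ fun Q _ => hs1 Q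
  have hP0 : ∏ Q ∈ S.erase Q₀, s Q ≠ 0 := Finset.prod_ne_zero_iff.mpr fun Q _ => hs2 Q
  have hPord : Q₀.ord (∏ Q ∈ S.erase Q₀, s Q) = 0 := by
    rw [t3a_ord_prod Q₀ _ _ (fun Q _ => hs2 Q)]
    exact Finset.sum_eq_zero fun Q _ => hs3 Q
  have hPmem : ∏ Q ∈ S.erase Q₀, s Q ∈ Q₀.toValuationSubring :=
    mem_of_ord_nonneg Q₀ (le_of_eq hPord.symm)
  obtain ⟨c, hc⟩ := exists_const_ordGE_one hx Q₀ hPmem
  have hc0 : c ≠ 0 := by
    rintro rfl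
    rw [map_zero, sub_zero] at hc
    rcases (ordGE_iff Q₀).mp hc with h0 | h0
    · exact hP0 h0
    · omega
  refine ⟨c⁻¹ • ∏ Q ∈ S.erase Q₀, s Q, tb_isIntegral_smul x c⁻¹ hPint, ?_, ?_⟩
  · have h1 := hc.smul Q₀ c⁻¹
    have h2 : c⁻¹ • (∏ Q ∈ S.erase Q₀, s Q - algebraMap K F c) =
        c⁻¹ • ∏ Q ∈ S.erase Q₀, s Q - 1 := by
      rw [smul_sub, Algebra.smul_def c⁻¹ (algebraMap K F c), ← map_mul, inv_mul_cancel₀ hc0,
        map_one]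
    rwa [h2] at h1
  · intro Q hQ hne
    apply OrdGE.smul
    have hmem : Q ∈ S.erase Q₀ := Finset.mem_erase.mpr ⟨hne, hQ⟩
    rw [← Finset.mul_prod_erase _ _ hmem]
    have h1 : OrdGE Q (s Q) 1 := hs4 Q hQ hne
    have h2 : OrdGE Q (∏ Q' ∈ (S.erase Q₀).erase Q, s Q') 0 := by
      rw [ordGE_iff]
      right
      exact ta_ord_nonneg_of_isIntegral (IsIntegral.prod _ fun Q' _ => hs1 Q') Q (hS Q hQ)
    have h3 := h1.mul Q h2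
    exact h3.mono Q (by norm_num)

/-- interpolation in `IntCl(K[x])` -/
theorem t3a_exists_interpolation_ded (S : Finset (Place K F))
    (hS : ∀ Q ∈ S, 0 ≤ Q.ord x) (v : Place K F → K) :
    ∃ t : F, IsIntegral ↥(Algebra.adjoin K {x}) t ∧
      ∀ Q ∈ S, OrdGE Q (t - algebraMap K F (v Q)) 1 := by
  classical
  have hex : ∀ Q₀ : Place K F, ∃ t : F, IsIntegral ↥(Algebra.adjoin K {x}) t ∧
      (Q₀ ∈ S → OrdGE Q₀ (t - 1) 1 ∧ ∀ Q ∈ S, Q ≠ Q₀ → OrdGE Q t 1) := by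
    intro Q₀
    by_cases hQ₀ : Q₀ ∈ S
    · obtain ⟨t, ht1, ht2, ht3⟩ := t3a_exists_indicator_ded hx S hS Q₀ hQ₀
      exact ⟨t, ht1, fun _ => ⟨ht2, ht3⟩⟩
    · exact ⟨0, isIntegral_zero, fun h => absurd h hQ₀⟩
  choose t ht1 ht2 using hex
  refine ⟨∑ Q₀ ∈ S, v Q₀ • t Q₀, ?_, ?_⟩
  · exact IsIntegral.sum _ fun Q₀ _ => tb_isIntegral_smul x (v Q₀) (ht1 Q₀)
  · intro Q hQ
    have h1 : ∑ Q₀ ∈ S, v Q₀ • t Q₀ - algebraMap K F (v Q) =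
        v Q • (t Q - 1) + ∑ Q₀ ∈ S.erase Q, v Q₀ • t Q₀ := by
      rw [← Finset.add_sum_erase _ _ hQ, smul_sub, Algebra.smul_def (v Q) (1 : F), mul_one]
      ring
    rw [h1]
    refine OrdGE.add Q ((ht2 Q hQ).1.smul Q (v Q)) ?_
    refine CurveP.RRAux.ordGE_sum Q _ _ _ fun Q₀ hQ₀ => ?_
    rw [Finset.mem_erase] at hQ₀
    exact ((ht2 Q₀ hQ₀.2).2 Q hQ hQ₀.1.symm).smul Q (v Q₀)

end Ded

variable [IsAlgClosed K] [IsAlgClosed k]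
variable {d : TbBase K F k Fb} {ℓ : ℕ} {x : F} (hg : T3aGood d ℓ x)

include hg

/-- **indicator functions**: `g ∈ C` with `(res g)(Q₀) = 1` and `(res g)(Q) = 0` for the other
`Q ∈ S` -/
theorem t3a_exists_indicator (S : Finset (Place k Fb)) (hS : ∀ Q ∈ S, 0 ≤ Q.ord hg.xb)
    (Q₀ : Place k Fb) (hQ₀ : Q₀ ∈ S) :
    ∃ g : F, ∃ hgC : g ∈ t3aC d x, OrdGE Q₀ (d.res ⟨g, hgC.1⟩ - 1) 1 ∧
      ∀ Q ∈ S, Q ≠ Q₀ → OrdGE Q (d.res ⟨g, hgC.1⟩) 1 := by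
  haveI := hg.sepb'
  obtain ⟨t, ht1, ht2, ht3⟩ := t3a_exists_indicator_ded hg.genb' S hS Q₀ hQ₀
  obtain ⟨g, hgC, hres⟩ := t3a_exists_lift hg ht1
  refine ⟨g, hgC, ?_, ?_⟩
  · rw [hres]; exact ht2
  · rw [hres]; exact ht3

/-- **interpolation**: `g ∈ C` with prescribed values of `res g` at finitely many places of the
chart -/
theorem t3a_exists_interpolation (S : Finset (Place k Fb)) (hS : ∀ Q ∈ S, 0 ≤ Q.ord hg.xb)
    (v : Place k Fb → k) :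
    ∃ g : F, ∃ hgC : g ∈ t3aC d x,
      ∀ Q ∈ S, OrdGE Q (d.res ⟨g, hgC.1⟩ - algebraMap k Fb (v Q)) 1 := by
  haveI := hg.sepb'
  obtain ⟨t, ht1, ht2⟩ := t3a_exists_interpolation_ded hg.genb' S hS v
  obtain ⟨g, hgC, hres⟩ := t3a_exists_lift hg ht1
  refine ⟨g, hgC, ?_⟩
  rw [hres]
  exact ht2

end Fermat.Agent.T3
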