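/-
T3-A (helper6), part 12: transport of identities between divisors to the reduction map on `Pic⁰`:
* `t3aRed_smul` : equivariance of `t3aRed` from equivariance of `mapDomain (t3aR hg)`;
* `t3aRed_corr` : `red (T y) = Φ • red y + n • Φ⁻¹ • red y` from the identity on points.
-/
import Fermat.Agent.Lib.T3.Red.Pic
import Fermat.Prelude.Def_AlgebraicCurve_BaseChangeGalois

set_option autoImplicit false
set_option linter.style.haveILetI false
set_option linter.unusedSectionVars false

namespace Fermat.Agent.T3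

open AlgebraicCurve IntermediateField Fermat.Agent.Curve Fermat.Agent.Curve.PlaceAux
  Fermat.Agent.T1

variable {K F k Fb : Type*} [Field K] [Field F] [Algebra K F] [Field k] [Field Fb] [Algebra k Fb]

theorem t3a_pic0_mk_nsmul (n : ℕ) (X : Divisor.degZero (K := K) (F := F)) :
    Pic0.mk (n • X) = n • Pic0.mk X :=
  QuotientAddGroup.mk_nsmul _ _ _

/-- from points to divisors -/
theorem t3a_mapDomain_corr (r : Place K F → Place k Fb) (T : Divisor K F →+ Divisor K F)
    (Φ : SemilinearAut k Fb) (n : ℤ)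
    (h : ∀ P : Place K F, Finsupp.mapDomain r (T (Finsupp.single P 1)) =
      Finsupp.single (Φ • r P) 1 + n • Finsupp.single (Φ⁻¹ • r P) 1)
    (D : Divisor K F) :
    Finsupp.mapDomain r (T D) =
      Φ • Finsupp.mapDomain r D + n • (Φ⁻¹ • Finsupp.mapDomain r D) := by
  induction D using Finsupp.induction_linear with
  | zero =>
    rw [map_zero, Finsupp.mapDomain_zero, smul_zero, smul_zero, smul_zero, add_zero]
  | add D E hD hE =>
    rw [map_add, Finsupp.mapDomain_add, Finsupp.mapDomain_add, hD, hE, smul_add, smul_add, smul_add]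
    abel
  | single P m =>
    rw [← Finsupp.smul_single_one P m, map_zsmul, Finsupp.mapDomain_smul, Finsupp.mapDomain_smul,
      h P, Finsupp.mapDomain_single, Finsupp.smul_single_one (r P) m, SemilinearAut.smul_single,
      SemilinearAut.smul_single, smul_add, smul_comm m n, Finsupp.smul_single_one,
      Finsupp.smul_single_one]

variable [IsAlgClosed K] [IsAlgClosed k]
variable {d : TbBase K F k Fb} {ℓ : ℕ} {x : F} (hg : T3aGood d ℓ x)

/-- equivariance of the reduction map on divisor classes -/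
theorem t3aRed_smul {g : SemilinearAut K F} {gb : SemilinearAut k Fb}
    (h : ∀ D : Divisor K F, Finsupp.mapDomain (t3aR hg) (g • D) =
      gb • Finsupp.mapDomain (t3aR hg) D) (y : Pic0 K F) :
    t3aRed hg (g • y) = gb • t3aRed hg y := by
  obtain ⟨D, rfl⟩ := Pic0.mk_surjective y
  rw [SemilinearAut.pic0_smul_mk, t3aRed_mk, t3aRed_mk, SemilinearAut.pic0_smul_mk]
  congr 1
  apply Subtype.ext
  rw [coe_t3aRedDiv0, SemilinearAut.coe_degZeroSMulHom, SemilinearAut.coe_degZeroSMulHom,
    coe_t3aRedDiv0]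
  exact h (D : Divisor K F)

/-- invariance of the reduction map on divisor classes -/
theorem t3aRed_smul_of_invariant {g : SemilinearAut K F}
    (h : ∀ D : Divisor K F, Finsupp.mapDomain (t3aR hg) (g • D) = Finsupp.mapDomain (t3aR hg) D)
    (y : Pic0 K F) : t3aRed hg (g • y) = t3aRed hg y := by
  have h1 := t3aRed_smul hg (g := g) (gb := 1) (fun D => by rw [h D, one_smul]) y
  rw [h1, one_smul]

/-- a correspondence with `r (T P) = Φ (r P) + n Φ⁻¹ (r P)` on points -/
theorem t3aRed_corr (T : Divisor K F →+ Divisor K F)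
    (hT : ∀ D : Divisor K F, D ∈ Divisor.degZero (K := K) (F := F) →
      T D ∈ Divisor.degZero (K := K) (F := F))
    (TP : Pic0 K F →+ Pic0 K F)
    (hTP : ∀ D : Divisor.degZero (K := K) (F := F),
      TP (Pic0.mk D) = Pic0.mk ⟨T (D : Divisor K F), hT D D.2⟩)
    (Φ : SemilinearAut k Fb) (n : ℕ)
    (h : ∀ P : Place K F, Finsupp.mapDomain (t3aR hg) (T (Finsupp.single P 1)) =
      Finsupp.single (Φ • t3aR hg P) 1 + (n : ℤ) • Finsupp.single (Φ⁻¹ • t3aR hg P) 1)
    (y : Pic0 K F) :
    t3aRed hg (TP y) = Φ • t3aRed hg y + n • (Φ⁻¹ • t3aRed hg y) := by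
  obtain ⟨D, rfl⟩ := Pic0.mk_surjective y
  rw [hTP, t3aRed_mk, t3aRed_mk, SemilinearAut.pic0_smul_mk, SemilinearAut.pic0_smul_mk,
    ← t3a_pic0_mk_nsmul, ← Pic0.mk_add]
  congr 1
  apply Subtype.ext
  rw [coe_t3aRedDiv0, AddSubgroup.coe_add, AddSubgroup.coe_nsmul,
    SemilinearAut.coe_degZeroSMulHom, SemilinearAut.coe_degZeroSMulHom, coe_t3aRedDiv0]
  have h2 := t3a_mapDomain_corr (t3aR hg) T Φ (n : ℤ) h (D : Divisor K F)
  rw [h2, natCast_zsmul]

end Fermat.Agent.T3
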